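import Fermat.Agent.TwoAdic.Pairing.TwoGen
import Fermat.Agent.TwoAdic.MultOne.Main

/-!
The cotangent space at an eigensystem with dihedral residual representation has dimension at most
two.
-/

set_option autoImplicit false

open CongruenceSubgroup
open Fermat.Agent.HeckeJ0 Fermat.Agent.HeckeModule Fermat.Agent.EigenRep Fermat.Agent.DefRing

namespace Fermat.Agent.TwoAdic.Pairing

open LevelRaising

variable {M : ℕ} [NeZero M] {k : Type} [Field k] [CharP k 2]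

omit [CharP k 2] in
lemma matEigen_le_eigenSpc (a : Nat.Primes → k) :
    matEigen (N := M) a ≤ MultOne.eigenSpc a := fun v hv => by
  have : Fact (2 : ℕ).Prime := ⟨Nat.prime_two⟩
  exact (mem_eigenSub (M := torsionHeckeModel M 2)).mpr fun l _ => mem_matEigen.mp hv l

/-- **Cotangent bound at odd level**: the eigensystem has `ψ T₂ = 1` and traces of a dihedral
residual representation with `D ≡ 3 mod 8` at almost all primes. -/
theorem finrank_cotangent_le_two_dihedral (hM : ¬ 2 ∣ M) (h4 : ∀ t : ZMod M, t ^ 2 + 1 ≠ 0)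
    (h3 : ∀ t : ZMod M, t ^ 2 + t + 1 ≠ 0) {ℓ₁ : ℕ} [Fact ℓ₁.Prime] (hl1 : (ℓ₁ : ZMod M) = 1)
    (ψ : HeckePoly k →ₐ[k] k) (hψ : ψ (eisen k ℓ₁) ≠ 0) {D : ℕ} {r : MRep k}
    (hr : IsDihedralResidual D r) (hc : IsCont r) (hD8 : D % 8 = 3) (S : Finset ℕ)
    (h2 : ψ (MvPolynomial.X ⟨2, Nat.prime_two⟩) = 1)
    (ha : ∀ (ℓ : ℕ) (hℓ : ℓ.Prime), ℓ ∉ S → ¬ ℓ ∣ 2 * M →
      ∀ P : ValuationSubring (AlgebraicClosure ℚ), P.LiesOverPrime ℓ →
        ∀ σ : (AlgebraicClosure ℚ) ≃ₐ[ℚ] (AlgebraicClosure ℚ), P.IsFrobeniusAt σ ℓ →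
          ψ (MvPolynomial.X ⟨ℓ, hℓ⟩) = (r σ).trace) :
    Module.finrank k (Coh1 (trivRep M k k) ⧸ cotangentKer (N := M) ψ) ≤ 2 := by
  have : Fact (2 : ℕ).Prime := ⟨Nat.prime_two⟩
  refine finrank_cotangent_le_two 2 h4 h3 hl1 ψ hψ (RingHom.id k) ?_
  have hb := MultOne.finrank_eigenSub_le_two hM hr hc hD8 S (fun l => ψ (MvPolynomial.X l)) h2 ha
  change Module.finrank k (MultOne.eigenSpc (M := M) fun l => ψ (MvPolynomial.X l)) ≤ 2 at hb
  refine le_trans ?_ hb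
  exact Submodule.finrank_mono (matEigen_le_eigenSpc _)

end Fermat.Agent.TwoAdic.Pairing
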