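import Fermat.Agent.TwoAdic.Pairing.EigenBound
import Fermat.Agent.HeckeJ0.Lattice
import Fermat.Agent.HeckeJ0.ParabolicFull
import Mathlib.Algebra.Algebra.ZMod
import Mathlib.LinearAlgebra.Dual.Lemmas

/-!
Good classes with coefficients in a field of positive characteristic, in the coordinates of the
lattice of `Γ₀(N)`: the Hecke operators become the integral Hecke matrices.
-/

set_option autoImplicit false

open CongruenceSubgroup
open scoped MatrixGroups

noncomputable section

namespace Fermat.Agent.TwoAdic.Pairing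

open HeckeJ0 LevelRaising HeckeModule

variable {N : ℕ} [NeZero N]

/-- A good homomorphism to a field of characteristic `p` is determined by its coordinates. -/
theorem ofCoords_coords_charP {k : Type} [Field k] {p : ℕ} [Fact p.Prime] [CharP k p]
    {ψ : Additive (Gamma0 N) →+ k} (hψ : IsGoodHom N ψ) : ofCoords N (coords N ψ) = ψ := by
  let : Algebra (ZMod p) k := ZMod.algebra k p
  refine AddMonoidHom.ext fun g => sub_eq_zero.mp
    ((Module.forall_dual_apply_eq_zero_iff (ZMod p) _).mp fun f => ?_)
  have hf : IsGoodHom N (f.toAddMonoidHom.comp ψ) := fun x hx => by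
    rw [AddMonoidHom.comp_apply, hψ x hx, map_zero]
  have h1 := DFunLike.congr_fun (ofCoords_coords_zmod N (parabolicFull N) p hf) g
  have h2 := DFunLike.congr_fun (map_ofCoords N f.toAddMonoidHom (coords N ψ)) g
  rw [map_sub, sub_eq_zero]
  exact h2.trans h1

variable {k : Type} [CommRing k]

/-- The homomorphism of a cocycle with trivial coefficients. -/
def homOf : Cocycle (trivRep N k k) →ₗ[k] (Additive (Gamma0 N) →+ k) where
  toFun c := AddMonoidHom.mk' (fun g => c.1 (Additive.toMul g))
    (fun _ _ => cocycle_trivial_mul _ (fun _ => rfl) c _ _)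
  map_add' _ _ := rfl
  map_smul' _ _ := rfl

omit [NeZero N] in
lemma homOf_apply (c : Cocycle (trivRep N k k)) (γ : Gamma0 N) :
    homOf c (Additive.ofMul γ) = c.1 γ := rfl

omit [NeZero N] in
/-- The Hecke operator on cocycles is the transfer of homomorphisms. -/
theorem homOf_heckeData (ℓ : ℕ) [Fact ℓ.Prime] [NeZero ℓ] (c : Cocycle (trivRep N k k)) :
    homOf ((heckeData (trivRep N k k) ℓ).onCocycles toGL_injective c) = cohHecke ℓ (homOf c) := by
  refine AddMonoidHom.ext fun g => ?_
  obtain ⟨γ, rfl⟩ := Additive.ofMul.surjective g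
  rw [cohHecke_apply, homOf_apply]
  refine Finset.sum_congr rfl fun x _ => ?_
  show c.1 ((heckeData (trivRep N k k) ℓ).tr x γ) = c.1 (gOf x γ)
  rw [((heckeData (trivRep N k k) ℓ).spec_unique toGL_injective (rep_mul x γ)).2]

/-- The coordinates of a class with trivial coefficients. -/
def classCoords : Coh1 (trivRep N k k) →ₗ[k] (Fin (rk N) → k) :=
  (coboundaries (gammaRep (trivRep N k k)) {negOne N}).liftQ
    { toFun := fun c i => c.1 (cyc N i)
      map_add' := fun _ _ => rfl
      map_smul' := fun _ _ => rfl } fun c hc => by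
    refine LinearMap.mem_ker.mpr (funext fun i => ?_)
    exact toCoh_trivial_eq_zero _ (fun _ => rfl)
      ((Submodule.Quotient.mk_eq_zero _).mpr hc) (cyc N i)

lemma classCoords_toCoh (c : Cocycle (trivRep N k k)) :
    classCoords (toCoh _ c) = coords N (homOf c) := rfl

section Field

variable {K : Type} [Field K] (p : ℕ) [Fact p.Prime] [CharP K p]

omit [NeZero N] in
lemma isGoodHom_homOf {c : Cocycle (trivRep N K K)}
    (hc : ∀ γ : Gamma0 N, ((γ : SL(2, ℤ)) : Matrix (Fin 2) (Fin 2) ℤ).trace ^ 2 ≤ 4 → c.1 γ = 0) :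
    IsGoodHom N (homOf c) := fun g hg => hc g hg

include p in
/-- Good classes are determined by their coordinates. -/
theorem eq_zero_of_classCoords_eq_zero {u : Coh1 (trivRep N K K)} (hu : u ∈ goodClasses N K)
    (h : classCoords u = 0) : u = 0 := by
  obtain ⟨c, rfl, hc⟩ := hu
  rw [classCoords_toCoh] at h
  have h1 := ofCoords_coords_charP (p := p) (isGoodHom_homOf hc)
  rw [h] at h1
  have h2 : c = 0 := Subtype.ext (funext fun γ => by
    rw [← homOf_apply c γ, ← h1]
    simp [ofCoords_apply])
  rw [h2, map_zero]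

include p in
/-- On good classes the Hecke operators are the integral Hecke matrices. -/
theorem classCoords_heckeOp {u : Coh1 (trivRep N K K)} (hu : u ∈ goodClasses N K) (ℓ : ℕ)
    [Fact ℓ.Prime] [NeZero ℓ] :
    classCoords (heckeOp (trivRep N K K) ℓ u) =
      ((heckeMat N ℓ).map (Int.cast : ℤ → K)).mulVec (classCoords u) := by
  obtain ⟨c, rfl, hc⟩ := hu
  rw [heckeOp_toCoh, classCoords_toCoh, homOf_heckeData, classCoords_toCoh,
    ← coords_cohHecke_ofCoords, ofCoords_coords_charP (p := p) (isGoodHom_homOf hc)]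

/-- The common eigenvectors of the Hecke matrices. -/
def matEigen (a : Nat.Primes → K) : Submodule K (Fin (rk N) → K) :=
  ⨅ l : Nat.Primes, LinearMap.ker (haveI : Fact (l : ℕ).Prime := ⟨l.2⟩
    haveI : NeZero (l : ℕ) := ⟨l.2.ne_zero⟩
    Matrix.mulVecLin ((heckeMat N (l : ℕ)).map (Int.cast : ℤ → K)) - a l • LinearMap.id)

lemma mem_matEigen {a : Nat.Primes → K} {v : Fin (rk N) → K} :
    v ∈ matEigen (N := N) a ↔ ∀ l : Nat.Primes,
      haveI : Fact (l : ℕ).Prime := ⟨l.2⟩
      haveI : NeZero (l : ℕ) := ⟨l.2.ne_zero⟩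
      ((heckeMat N (l : ℕ)).map (Int.cast : ℤ → K)).mulVec v = a l • v := by
  simp [matEigen, Submodule.mem_iInf, sub_eq_zero]

include p in
/-- **The good eigenclasses inject into the eigenvectors of the Hecke matrices.** -/
theorem finrank_eig_le_matEigen (ψ : HeckePoly K →ₐ[K] K) :
    Module.finrank K ↥(eigClasses (N := N) ψ ⊓ goodClasses N K) ≤
      Module.finrank K ↥(matEigen (N := N) fun l => ψ (MvPolynomial.X l)) := by
  have : Module.Finite K (Coh1 (trivRep N K K)) := finite_coh1 _
  let L : ↥(eigClasses (N := N) ψ ⊓ goodClasses N K) →ₗ[K]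
      ↥(matEigen (N := N) fun l => ψ (MvPolynomial.X l)) :=
    (classCoords.comp (eigClasses (N := N) ψ ⊓ goodClasses N K).subtype).codRestrict _ fun u =>
      mem_matEigen.mpr fun l => by
        have : Fact (l : ℕ).Prime := ⟨l.2⟩
        have : NeZero (l : ℕ) := ⟨l.2.ne_zero⟩
        show _ = ψ (MvPolynomial.X l) • classCoords u.1
        rw [← map_smul, ← u.2.1 (MvPolynomial.X l)]
        exact (classCoords_heckeOp p u.2.2 (l : ℕ)).symm.trans
          (congrArg classCoords (X_smul _ (l : ℕ) u.1).symm)
  refine LinearMap.finrank_le_finrank_of_injective (f := L) ?_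
  rw [injective_iff_map_eq_zero]
  intro u hu
  exact Subtype.ext (eq_zero_of_classCoords_eq_zero p u.2.2 (congrArg Subtype.val hu))

/-- The eigenvectors do not lose dimension under an extension of fields. -/
theorem finrank_matEigen_le {L : Type} [Field L] (f : K →+* L) (a : Nat.Primes → K) :
    Module.finrank K ↥(matEigen (N := N) a) ≤
      Module.finrank L ↥(matEigen (N := N) fun l => f (a l)) := by
  set E := matEigen (N := N) a
  set d := Module.finrank K E
  let b := Module.finBasis K E
  obtain ⟨π, hπ⟩ := LinearMap.exists_leftInverse_of_injective E.subtype E.ker_subtype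
  let B : Matrix (Fin (rk N)) (Fin d) K := fun i j => (b j).1 i
  let P : Matrix (Fin d) (Fin (rk N)) K := fun j i => b.repr (π (Pi.single i 1)) j
  have hPB : P * B = 1 := by
    ext i j
    have h1 : π (b j).1 = b j := LinearMap.congr_fun hπ (b j)
    have h2 : ∑ x, (b j).1 x • π (Pi.single x 1) = b j := by
      conv_rhs => rw [← h1, pi_eq_sum_univ' (b j).1, map_sum]
      exact Finset.sum_congr rfl fun x _ => (map_smul π _ _).symm
    have h3 := congrArg (fun v => b.repr v i) h2
    simp only [map_sum, map_smul, Finsupp.coe_finsetSum, Finset.sum_apply, Finsupp.smul_apply,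
      Module.Basis.repr_self, smul_eq_mul] at h3
    rw [Matrix.mul_apply, Matrix.one_apply]
    refine Eq.trans ?_ (h3.trans (by rw [Finsupp.single_apply]; simp [eq_comm]))
    exact Finset.sum_congr rfl fun x _ => mul_comm _ _
  have hfPB : P.map f * B.map f = 1 := by
    rw [← Matrix.map_mul, hPB, Matrix.map_one f (map_zero f) (map_one f)]
  have hmem : ∀ j, (fun i => f ((b j).1 i)) ∈ matEigen (N := N) fun l => f (a l) := fun j => by
    refine mem_matEigen.mpr fun l => ?_
    have : Fact (l : ℕ).Prime := ⟨l.2⟩
    have : NeZero (l : ℕ) := ⟨l.2.ne_zero⟩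
    funext i
    have h := congrArg f (congrFun (mem_matEigen.mp (b j).2 l) i)
    rw [RingHom.map_mulVec, Matrix.map_map] at h
    rw [Pi.smul_apply, smul_eq_mul, ← map_mul, ← smul_eq_mul, ← Pi.smul_apply, ← h]
    exact congrArg (fun M => Matrix.mulVec M _ i) (by ext; simp)
  let g : (Fin d → L) →ₗ[L] ↥(matEigen (N := N) fun l => f (a l)) :=
    (Matrix.mulVecLin (B.map f)).codRestrict _ fun c => by
      rw [Matrix.mulVecLin_apply, Matrix.mulVec_eq_sum]
      exact Submodule.sum_mem _ fun j _ => by
        have := Submodule.smul_mem _ (c j) (hmem j)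
        convert this using 1
        funext i
        show f ((b j).1 i) * c j = c j * f ((b j).1 i)
        rw [mul_comm]
  have hg : Function.Injective g := fun c c' h => by
    have h' : (B.map f).mulVec c = (B.map f).mulVec c' := congrArg Subtype.val h
    have := congrArg (P.map f).mulVec h'
    rwa [Matrix.mulVec_mulVec, Matrix.mulVec_mulVec, hfPB, Matrix.one_mulVec, Matrix.one_mulVec]
      at this
  have := LinearMap.finrank_le_finrank_of_injective hg
  rwa [Module.finrank_fin_fun] at this

end Field

end Fermat.Agent.TwoAdic.Pairing
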