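import Fermat.Agent.TwoAdic.Pairing.Generators
import Fermat.Agent.TwoAdic.Pairing.EigenCoords

/-!
Quotients of the localised `H¹` are generated by two elements, given multiplicity one.
-/

set_option autoImplicit false

open CongruenceSubgroup IsLocalRing
open scoped MatrixGroups

noncomputable section

universe uP uT

namespace Fermat.Agent.TwoAdic.Pairing

open HeckeJ0 LevelRaising HeckeModule

/-- **The cotangent space has dimension at most two**, given multiplicity one in coordinates. -/
theorem finrank_cotangent_le_two {N : ℕ} [NeZero N] {k : Type} [Field k] (p : ℕ) [Fact p.Prime]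
    [CharP k p] {r : ℕ} [Fact r.Prime] (h4 : ∀ t : ZMod N, t ^ 2 + 1 ≠ 0)
    (h3 : ∀ t : ZMod N, t ^ 2 + t + 1 ≠ 0) (hr1 : (r : ZMod N) = 1) (ψ : HeckePoly k →ₐ[k] k)
    (hψ : ψ (eisen k r) ≠ 0) {L : Type} [Field L] (f : k →+* L)
    (hm : Module.finrank L ↥(matEigen (N := N) fun l => f (ψ (MvPolynomial.X l))) ≤ 2) :
    Module.finrank k (Coh1 (trivRep N k k) ⧸ cotangentKer (N := N) ψ) ≤ 2 :=
  (finrank_cotangent_le h4 h3 hr1 ψ hψ).trans
    ((finrank_eig_le_matEigen p ψ).trans ((finrank_matEigen_le f _).trans hm))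

section Quotient

attribute [local instance] Ideal.Quotient.field

variable {O : Type} [CommRing O] [IsLocalRing O] [IsNoetherianRing O] {N : ℕ} [NeZero N]

local notation "κ" => O ⧸ maximalIdeal O

variable {χ : (ZMod N)ˣ →* O} (hχ : ∀ u, χ u - 1 ∈ maximalIdeal O) {S : Submonoid (HeckePoly O)}
  {P : Type uP} [AddCommGroup P] [Module O P]

include hχ in
/-- A quotient on which all Hecke operators act residually by an eigensystem with cotangent space of
dimension at most two is generated modulo `W` by two elements. -/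
theorem exists_two_generators (h : ExactHyp S χ) (ψ : HeckePoly κ →ₐ[κ] κ)
    (hψ2 : Module.finrank κ (Coh1 (trivRep N κ κ) ⧸ cotangentKer (N := N) ψ) ≤ 2)
    (hS : ∀ s ∈ S, ψ (MvPolynomial.map (Ideal.Quotient.mk (maximalIdeal O)) s) ≠ 0)
    (q : CohChar S χ O →ₗ[O] P) (W : Submodule O P) (hq : LinearMap.range q ⊔ W = ⊤)
    (hW : maximalIdeal O • (⊤ : Submodule O P) ≤ W)
    (hcompat : ∀ (a : HeckePoly O) (r : O),
      Ideal.Quotient.mk (maximalIdeal O) r =
          ψ (MvPolynomial.map (Ideal.Quotient.mk (maximalIdeal O)) a) →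
        ∀ x, q (a • x) - r • q x ∈ W) :
    ∃ m : Fin 2 → P, Submodule.span O (Set.range m) ⊔ W = ⊤ := by
  classical
  obtain ⟨m, hm⟩ := exists_generators (hχ := hχ) h ψ hS q W hq hW hcompat
  refine ⟨fun i => if hi : (i : ℕ) < _ then m ⟨i, hi⟩ else 0, top_le_iff.mp (hm.ge.trans ?_)⟩
  refine sup_le ((Submodule.span_mono ?_).trans le_sup_left) le_sup_right
  rintro _ ⟨j, rfl⟩
  exact ⟨⟨j, j.2.trans_le hψ2⟩, dif_pos j.2⟩

variable {R : Type uT} [CommRing R] [IsLocalRing R] [Algebra O R] [Module R P] [IsScalarTower O R P]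
  [Module.Finite R P]

include hχ in
/-- **Two generators over a local Hecke algebra.** -/
theorem exists_two_generators_local (h : ExactHyp S χ) (ψ : HeckePoly κ →ₐ[κ] κ)
    (hψ2 : Module.finrank κ (Coh1 (trivRep N κ κ) ⧸ cotangentKer (N := N) ψ) ≤ 2)
    (hS : ∀ s ∈ S, ψ (MvPolynomial.map (Ideal.Quotient.mk (maximalIdeal O)) s) ≠ 0)
    [IsLocalHom (algebraMap O R)]
    (q : CohChar S χ O →ₗ[O] P) (hq : Function.Surjective q) (t : HeckePoly O → R)
    (ht : ∀ a x, q (a • x) = t a • q x)
    (hres : ∀ (a : HeckePoly O) (r : O),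
      Ideal.Quotient.mk (maximalIdeal O) r =
          ψ (MvPolynomial.map (Ideal.Quotient.mk (maximalIdeal O)) a) →
        t a - algebraMap O R r ∈ maximalIdeal R) :
    ∃ m : Fin 2 → P, Submodule.span R (Set.range m) = ⊤ := by
  let W : Submodule O P := (maximalIdeal R • (⊤ : Submodule R P)).restrictScalars O
  have hW : maximalIdeal O • (⊤ : Submodule O P) ≤ W := Submodule.smul_le.mpr fun c hc x _ => by
    show c • x ∈ maximalIdeal R • (⊤ : Submodule R P)
    rw [← algebraMap_smul R c x]
    exact Submodule.smul_mem_smul (map_nonunit (algebraMap O R) c hc) Submodule.mem_top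
  obtain ⟨m, hm⟩ := exists_two_generators hχ h ψ hψ2 hS q W
    (by rw [LinearMap.range_eq_top.mpr hq, top_sup_eq]) hW fun a r hr x => by
      show _ ∈ maximalIdeal R • (⊤ : Submodule R P)
      rw [ht, ← algebraMap_smul R r (q x), ← sub_smul]
      exact Submodule.smul_mem_smul (hres a r hr) Submodule.mem_top
  refine ⟨m, top_le_iff.mp ?_⟩
  refine Submodule.le_of_le_smul_of_le_jacobson_bot (Module.Finite.fg_top (R := R) (M := P))
    (jacobson_eq_maximalIdeal ⊥ bot_ne_top).ge fun x _ => ?_
  obtain ⟨y, hy, w, hw, rfl⟩ := Submodule.mem_sup.mp (hm.ge (Submodule.mem_top (x := x)))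
  exact Submodule.add_mem_sup
    ((Submodule.span_le_restrictScalars O R (Set.range m)) hy) hw

end Quotient

end Fermat.Agent.TwoAdic.Pairing
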