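import Fermat.Agent.TwoAdic.Pairing.FrickeDual
import Fermat.Agent.HeckeModule.Elliptic
import Fermat.Agent.HeckeModule.Finite
import Mathlib.LinearAlgebra.FreeModule.Finite.Quotient
import Mathlib.LinearAlgebra.Dual.Lemmas

/-!
The cotangent space of `H¹(Γ₀(N), k)` at a non-Eisenstein eigensystem is bounded by the eigenspace
of good classes, by intersection duality.
-/

set_option autoImplicit false

open CongruenceSubgroup Matrix.SpecialLinearGroup
open scoped MatrixGroups

namespace Fermat.Agent.TwoAdic.Pairing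

open HeckeJ0 LevelRaising HeckeModule

variable {N : ℕ}

/-- Classes whose cocycle kills the parabolic and elliptic elements. -/
def goodClasses (N : ℕ) (k : Type) [CommRing k] : Submodule k (Coh1 (trivRep N k k)) where
  carrier := {u | ∃ c : Cocycle (trivRep N k k), toCoh _ c = u ∧
    ∀ γ : Gamma0 N, ((γ : SL(2, ℤ)) : Matrix (Fin 2) (Fin 2) ℤ).trace ^ 2 ≤ 4 → c.1 γ = 0}
  zero_mem' := ⟨0, map_zero _, fun _ _ => rfl⟩
  add_mem' := by
    rintro _ _ ⟨c, rfl, hc⟩ ⟨d, rfl, hd⟩
    exact ⟨c + d, map_add _ _ _, fun γ hγ => by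
      show c.1 γ + d.1 γ = 0
      rw [hc γ hγ, hd γ hγ, add_zero]⟩
  smul_mem' := by
    rintro r _ ⟨c, rfl, hc⟩
    exact ⟨r • c, map_smul _ _ _, fun γ hγ => by
      show r • c.1 γ = 0
      rw [hc γ hγ, smul_zero]⟩

/-- The eigenspace of an eigensystem of all Hecke operators. -/
def eigClasses {k : Type} [CommRing k] (ψ : HeckePoly k →ₐ[k] k) :
    Submodule k (Coh1 (trivRep N k k)) where
  carrier := {u | ∀ a : HeckePoly k, a • u = ψ a • u}
  zero_mem' a := by rw [smul_zero, smul_zero]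
  add_mem' hu hv a := by rw [smul_add, smul_add, hu a, hv a]
  smul_mem' r u hu a := by rw [smul_comm, hu a, smul_comm]

lemma mem_eigClasses_of_X {k : Type} [CommRing k] {ψ : HeckePoly k →ₐ[k] k}
    {u : Coh1 (trivRep N k k)}
    (h : ∀ l : Nat.Primes, (MvPolynomial.X l : HeckePoly k) • u = ψ (MvPolynomial.X l) • u) :
    u ∈ eigClasses ψ := by
  intro a
  induction a using MvPolynomial.induction_on with
  | C r =>
    rw [← MvPolynomial.algebraMap_eq, algebraMap_smul, AlgHom.commutes, Algebra.algebraMap_self,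
      RingHom.id_apply]
  | add a b ha hb => rw [add_smul, map_add, add_smul, ha, hb]
  | mul_X a l ha => rw [mul_smul, h, smul_comm, ha, smul_smul, map_mul, mul_comm]

/-- An element of `Γ₀(N)` with `trace ^ 2 ≤ 4` fixes a cusp up to sign, when there are no
elliptic points. -/
theorem exists_act_eq [NeZero N] (h4 : ∀ t : ZMod N, t ^ 2 + 1 ≠ 0)
    (h3 : ∀ t : ZMod N, t ^ 2 + t + 1 ≠ 0) (γ : Gamma0 N)
    (hγ : ((γ : SL(2, ℤ)) : Matrix (Fin 2) (Fin 2) ℤ).trace ^ 2 ≤ 4) :
    ∃ (v : Vec) (e : ℤ), e ≠ 0 ∧ v ≠ 0 ∧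
      LevelRaising.act ((γ : SL(2, ℤ)) : Mat) v = e • v := by
  set a := (γ : SL(2, ℤ)) 0 0
  set b := (γ : SL(2, ℤ)) 0 1
  set c := (γ : SL(2, ℤ)) 1 0
  set d := (γ : SL(2, ℤ)) 1 1
  have hdet : a * d - b * c = 1 := by
    have := (γ : SL(2, ℤ)).det_coe
    rwa [Matrix.det_fin_two] at this
  rw [Matrix.trace_fin_two] at hγ
  have hcN : (c : ZMod N) = 0 := Gamma0_mem.mp γ.2
  have hdetN : (a : ZMod N) * (d : ZMod N) = 1 := by
    have h := congrArg (Int.cast : ℤ → ZMod N) hdet
    push_cast at h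
    rw [hcN, mul_zero, sub_zero] at h
    exact h
  have hlo : -2 ≤ a + d := by nlinarith
  have hhi : a + d ≤ 2 := by nlinarith
  have key : ∀ s : ℤ, a + d = s → (d : ZMod N) = (s : ZMod N) - (a : ZMod N) := fun s hs => by
    rw [← hs]; push_cast; ring
  obtain ⟨e, he, hs⟩ : ∃ e : ℤ, (e = 1 ∨ e = -1) ∧ a + d = 2 * e := by
    rcases (show a + d = -2 ∨ a + d = -1 ∨ a + d = 0 ∨ a + d = 1 ∨ a + d = 2 by omega) with
      h | h | h | h | h
    · exact ⟨-1, Or.inr rfl, h⟩
    · exact absurd (by rw [key _ h] at hdetN; push_cast at hdetN; linear_combination -hdetN)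
        (h3 (a : ZMod N))
    · exact absurd (by rw [key _ h] at hdetN; push_cast at hdetN; linear_combination -hdetN)
        (h4 (a : ZMod N))
    · exact absurd (by rw [key _ h] at hdetN; push_cast at hdetN; linear_combination -hdetN)
        (h3 (-(a : ZMod N)))
    · exact ⟨1, Or.inl rfl, h⟩
  have he0 : e ≠ 0 := by omega
  have he2 : e * e = 1 := by rcases he with rfl | rfl <;> norm_num
  have hbc : b * c = -((a - e) * (a - e)) := by linear_combination -hdet + a * hs + he2
  by_cases hb : b = 0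
  · refine ⟨(0, 1), e, he0, by simp [Prod.ext_iff], ?_⟩
    have hae : a = e := by
      rw [hb, zero_mul, eq_comm, neg_eq_zero, mul_self_eq_zero, sub_eq_zero] at hbc
      exact hbc
    show (a * 0 + b * 1, c * 0 + d * 1) = e • ((0, 1) : Vec)
    simp only [Prod.smul_mk, smul_eq_mul]
    refine Prod.ext ?_ ?_
    · show a * 0 + b * 1 = e * 0
      rw [hb]; ring
    · show c * 0 + d * 1 = e * 1
      linear_combination hs - hae
  · refine ⟨(b, e - a), e, he0, by simp [Prod.ext_iff, hb], ?_⟩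
    show (a * b + b * (e - a), c * b + d * (e - a)) = e • ((b, e - a) : Vec)
    simp only [Prod.smul_mk, smul_eq_mul]
    refine Prod.ext ?_ ?_
    · show a * b + b * (e - a) = e * b
      ring
    · show c * b + d * (e - a) = e * (e - a)
      linear_combination hbc + (e - a) * hs

variable {k : Type} [Field k] [NeZero N]

/-- The dual classes are good, before and after the Fricke involution. -/
theorem frickeCoh_dualClass_mem_good (h4 : ∀ t : ZMod N, t ^ 2 + 1 ≠ 0)
    (h3 : ∀ t : ZMod N, t ^ 2 + t + 1 ≠ 0) (φ : Coh1 (trivRep N k k) →ₗ[k] k) :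
    frickeCoh k (dualClass k φ) ∈ goodClasses N k := by
  obtain ⟨c', h, hc'⟩ := frickeCoh_toCoh (dualCocycle k φ)
  refine ⟨c', h.symm, fun γ hγ => ?_⟩
  rw [hc']
  obtain ⟨v, e, he, hv, hact⟩ := exists_act_eq h4 h3 (frickeConj γ) (by rwa [trace_frickeConj])
  have hG := isSym_dualSymbol k φ
  have h := hG.equiv _ (coe_mem_lvl (frickeConj γ)) v hv
  rw [hact, hG.homog _ he, right_eq_add] at h
  exact h

/-- A functional with the eigenrelation gives an eigenclass. -/
theorem frickeCoh_dualClass_mem_eig {ψ : HeckePoly k →ₐ[k] k}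
    {φ : Coh1 (trivRep N k k) →ₗ[k] k} (hφ : ∀ (a : HeckePoly k) u, φ (a • u) = ψ a * φ u) :
    frickeCoh k (dualClass k φ) ∈ eigClasses ψ := by
  refine mem_eigClasses_of_X fun l => ?_
  have : Fact (l : ℕ).Prime := ⟨l.2⟩
  have e : φ ∘ₗ heckeOp (trivRep N k k) (l : ℕ) = ψ (MvPolynomial.X l) • φ :=
    LinearMap.ext fun u => by
      rw [LinearMap.comp_apply, ← X_smul, hφ]
      rfl
  have h := dualClass_comp_heckeOp_fricke (ℓ := (l : ℕ)) k φ
  rw [e, map_smul] at h
  have h' := congrArg (frickeCoh k) h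
  rw [map_smul, frickeCoh_frickeCoh] at h'
  exact (X_smul _ (l : ℕ) _).trans h'.symm

variable {r : ℕ} [hr : Fact r.Prime]

/-- Such a functional is zero as soon as its class is, away from Eisenstein eigensystems. -/
theorem eq_zero_of_frickeCoh_dualClass_eq_zero (hN : Liftable k N) (hr1 : (r : ZMod N) = 1)
    {ψ : HeckePoly k →ₐ[k] k} (hψ : ψ (eisen k r) ≠ 0) {φ : Coh1 (trivRep N k k) →ₗ[k] k}
    (hφ : ∀ (a : HeckePoly k) u, φ (a • u) = ψ a * φ u)
    (h0 : frickeCoh k (dualClass k φ) = 0) : φ = 0 := by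
  have h1 : dualClass k φ = 0 := by rw [← frickeCoh_frickeCoh (dualClass k φ), h0, map_zero]
  refine LinearMap.ext fun u => ?_
  have h2 := LinearMap.congr_fun (comp_eisen_eq_zero k hN hr1 h1) u
  have h3 : φ (eisen k r • u) = 0 := by rw [eisen_smul]; exact h2
  rw [hφ] at h3
  exact (mul_eq_zero.mp h3).resolve_left hψ

/-- The functionals with the eigenrelation. -/
def eigFunctionals (ψ : HeckePoly k →ₐ[k] k) : Submodule k (Coh1 (trivRep N k k) →ₗ[k] k) where
  carrier := {φ | ∀ (a : HeckePoly k) u, φ (a • u) = ψ a * φ u}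
  zero_mem' a u := by simp
  add_mem' {f g} hf hg a u := by
    rw [LinearMap.add_apply, LinearMap.add_apply, hf, hg, mul_add]
  smul_mem' c {f} hf a u := by
    rw [LinearMap.smul_apply, LinearMap.smul_apply, hf, smul_eq_mul, smul_eq_mul, mul_left_comm]

/-- The cotangent space at `ψ`. -/
noncomputable def cotangentKer (ψ : HeckePoly k →ₐ[k] k) : Submodule k (Coh1 (trivRep N k k)) :=
  (RingHom.ker ψ • (⊤ : Submodule (HeckePoly k) (Coh1 (trivRep N k k)))).restrictScalars k

omit [NeZero N] in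
lemma comp_mkQ_mem_eigFunctionals {ψ : HeckePoly k →ₐ[k] k}
    (f : (Coh1 (trivRep N k k) ⧸ cotangentKer ψ) →ₗ[k] k) :
    f ∘ₗ (cotangentKer ψ).mkQ ∈ eigFunctionals ψ := by
  intro a u
  have hmem : a • u - ψ a • u ∈ cotangentKer ψ := by
    show a • u - ψ a • u ∈ RingHom.ker ψ • (⊤ : Submodule (HeckePoly k) (Coh1 (trivRep N k k)))
    rw [← algebraMap_smul (HeckePoly k) (ψ a) u, ← sub_smul]
    exact Submodule.smul_mem_smul (by
      rw [RingHom.mem_ker, map_sub, AlgHom.commutes, Algebra.algebraMap_self, RingHom.id_apply,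
        sub_self]) Submodule.mem_top
  have h : (f ∘ₗ (cotangentKer ψ).mkQ) (a • u - ψ a • u) = 0 := by
    rw [LinearMap.comp_apply, Submodule.mkQ_apply, (Submodule.Quotient.mk_eq_zero _).mpr hmem,
      map_zero]
  rwa [map_sub, map_smul (f ∘ₗ (cotangentKer ψ).mkQ) (ψ a) u, smul_eq_mul, sub_eq_zero] at h

/-- **The cotangent space is bounded by the good eigenclasses.** -/
theorem finrank_cotangent_le (h4 : ∀ t : ZMod N, t ^ 2 + 1 ≠ 0)
    (h3 : ∀ t : ZMod N, t ^ 2 + t + 1 ≠ 0) (hr1 : (r : ZMod N) = 1) (ψ : HeckePoly k →ₐ[k] k)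
    (hψ : ψ (eisen k r) ≠ 0) :
    Module.finrank k (Coh1 (trivRep N k k) ⧸ cotangentKer (N := N) ψ) ≤
      Module.finrank k ↥(eigClasses (N := N) ψ ⊓ goodClasses N k) := by
  have : Module.Finite k (Coh1 (trivRep N k k)) := finite_coh1 _
  have hN : Liftable k N := ⟨Or.inr (S_smul_ne_self h4), Or.inr (elV_smul_ne_self h3)⟩
  let Φ : eigFunctionals (N := N) ψ →ₗ[k] ↥(eigClasses (N := N) ψ ⊓ goodClasses N k) :=
    (frickeCoh k ∘ₗ dualClass k ∘ₗ (eigFunctionals ψ).subtype).codRestrict _ fun φ =>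
      ⟨frickeCoh_dualClass_mem_eig φ.2, frickeCoh_dualClass_mem_good h4 h3 _⟩
  have hΦ : Function.Injective Φ := fun x y h => by
    refine sub_eq_zero.mp (Subtype.ext (eq_zero_of_frickeCoh_dualClass_eq_zero hN hr1 hψ
      (x - y).2 ?_))
    show frickeCoh k (dualClass k (x.1 - y.1)) = 0
    rw [map_sub, map_sub, sub_eq_zero]
    exact congrArg Subtype.val h
  let L : ((Coh1 (trivRep N k k) ⧸ cotangentKer (N := N) ψ) →ₗ[k] k) →ₗ[k]
      eigFunctionals (N := N) ψ :=
    (LinearMap.lcomp k k (cotangentKer (N := N) ψ).mkQ).codRestrict _ comp_mkQ_mem_eigFunctionals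
  have hL : Function.Injective L := fun f g h =>
    LinearMap.ext fun x => by
      obtain ⟨u, rfl⟩ := (cotangentKer (N := N) ψ).mkQ_surjective x
      exact LinearMap.congr_fun (congrArg Subtype.val h) u
  have := LinearMap.finrank_le_finrank_of_injective (f := Φ.comp L) (hΦ.comp hL)
  rwa [Subspace.dual_finrank_eq] at this

end Fermat.Agent.TwoAdic.Pairing
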