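import Fermat.Agent.HeckeModule.TraceSurjective
import Fermat.Agent.HeckeJ0.Act

/-!
Intersection duality on `H¹(Γ₀(N))`: transposing a Hecke operator (any prime, also in the level)
conjugates it by the Fricke involution.
-/

set_option autoImplicit false

open CongruenceSubgroup Matrix.SpecialLinearGroup
open scoped MatrixGroups OnePoint

universe uO

namespace Fermat.Agent.TwoAdic.Pairing

open HeckeJ0 LevelRaising HeckeModule

variable {N : ℕ} (O : Type uO) [CommRing O]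

section Adjugate

variable {ι : Type*} {X X' : Set Mat} {β β' : ι → Mat}

/-- The operator of a system of representatives. -/
noncomputable def factOp [Fintype ι] (hβ : IsFact X (Lvl N) β)
    (hX : ∀ x ∈ X, ∀ γ ∈ Lvl N, x * γ ∈ X) :
    Coh1 (trivRep N O O) →ₗ[O] Coh1 (trivRep N O O) :=
  (factData O hβ hX).onH1 toGL_injective

lemma factOp_toCoh [Fintype ι] (hβ : IsFact X (Lvl N) β) (hX : ∀ x ∈ X, ∀ γ ∈ Lvl N, x * γ ∈ X)
    (c : Cocycle (trivRep N O O)) :
    factOp O hβ hX (toCoh _ c) =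
      toCoh (trivRep N O O) ((factData O hβ hX).onCocycles toGL_injective c) := rfl

lemma exists_trans_fact (hβ : IsFact X (Lvl N) β) (hX : ∀ x ∈ X, ∀ γ ∈ Lvl N, x * γ ∈ X)
    (γ : Gamma0 N) (i : ι) :
    β i * ((γ : SL(2, ℤ)) : Mat) =
      (((factData O hβ hX).tr i γ : SL(2, ℤ)) : Mat) * β ((factData O hβ hX).perm γ i) :=
  (matGL_mul_toGL_iff (hβ.det_ne_zero _) (hβ.det_ne_zero _) _ _).mp
    ((factData O hβ hX).mul_spec i γ)

variable [Fintype ι] [NeZero N] (hβ : IsFact X (Lvl N) β) (hX : ∀ x ∈ X, ∀ γ ∈ Lvl N, x * γ ∈ X)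
  (hβ' : IsFact X' (Lvl N) β') (hX' : ∀ x ∈ X', ∀ γ ∈ Lvl N, x * γ ∈ X')
  (hadj : Matrix.adjugate '' X = X') {r : ℤ} (hr : 0 < r) (hXr : ∀ x ∈ X, x.det = r)

include hadj hXr in
omit [Fintype ι] [NeZero N] in
lemma det_of_mem_adj {x : Mat} (hx : x ∈ X') : x.det = r := by
  rw [← hadj] at hx
  obtain ⟨y, hy, rfl⟩ := hx
  rw [Matrix.det_adjugate]
  simpa using hXr y hy

include hadj hr hXr hβ' in
/-- The operator of `X` on an intersection class is given by representatives of `adj X`. -/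
theorem op_interClass {v : Vec} (hv : v ≠ 0) :
    factOp O hβ hX (interClass (N := N) O v) =
      ∑ i, (interClass O (LevelRaising.act (β' i) v)
        - interClass O (LevelRaising.act (β' i) vE)) := by
  set D := factData O hβ hX
  simp only [interClass]
  rw [factOp_toCoh]
  simp only [← map_sub]
  rw [← map_sum]
  refine congrArg (toCoh _) (Subtype.ext (funext fun γ => ?_))
  show (∑ i, (quarterInter N ((D.tr i γ : SL(2, ℤ)) : Mat) v : O)) = _
  simp only [Submodule.coe_sum, Finset.sum_apply, AddSubgroupClass.coe_sub, Pi.sub_apply,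
    interCocycle_apply, ← Int.cast_sub, ← Int.cast_sum]
  congr 1
  refine mul_left_cancel₀ (show (4 : ℤ) ≠ 0 by norm_num) ?_
  simp only [Finset.mul_sum, mul_sub, four_mul_quarterInter (coe_mem_lvl _)]
  have hγ := coe_mem_lvl γ
  have hpos : ∀ i, 0 < (β' i).det := fun i => by
    rw [det_of_mem_adj hadj hXr (by simpa using hβ'.mem 1 (one_mem_lvl N) i)]; exact hr
  have hfin : (X' ∩ Function.support (sepTerm 1 ((γ : SL(2, ℤ)) : Mat).adjugate vE v)).Finite :=
    finite_support_sepTerm (by simp) (det_adjugate_pos hγ) vE v hr.ne'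
      (fun x hx => det_of_mem_adj hadj hXr hx)
  have hinj : Set.InjOn Matrix.adjugate X := fun a _ b _ e => by
    have := congrArg Matrix.adjugate e
    simpa [Matrix.adjugate_adjugate] using this
  rw [sum_inter_of_fact (N := N) hβ (fun i => by
      have := hXr _ (by simpa using hβ.mem 1 (one_mem_lvl N) i); omega) hr.ne' hXr hγ
      (D.permEquiv toGL_injective γ) (fun i => coe_mem_lvl (D.tr i γ))
      (fun i => exists_trans_fact O hβ hX γ i) v,
    ← finsum_mem_image hinj (f := fun y => sepTerm 1 ((γ : SL(2, ℤ)) : Mat).adjugate vE v y), hadj,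
    finsum_fact hβ' _ hfin]
  refine Finset.sum_congr rfl fun i _ => ?_
  rw [← inter_pair hγ (act_ne_zero (hpos i).ne' vE_ne_zero) (act_ne_zero (hpos i).ne' hv), crossing]
  exact finsum_mem_congr rfl fun z _ => by simp only [sepTerm, LevelRaising.act_mul]

include hadj hr hXr in
/-- Transposition replaces `X` by `adj X`. -/
theorem dualClass_comp_op (φ : Coh1 (trivRep N O O) →ₗ[O] O) :
    dualClass O (φ ∘ₗ factOp O hβ hX) = factOp O hβ' hX' (dualClass O φ) := by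
  set D' := factData O hβ' hX'
  show toCoh _ _ = factOp O hβ' hX' (toCoh _ _)
  rw [factOp_toCoh]
  refine congrArg (toCoh _) (Subtype.ext (funext fun δ => ?_))
  show φ (factOp O hβ hX
      (interClass O (LevelRaising.act ((δ : SL(2, ℤ)) : Mat) vE)))
    = ∑ x, dualSymbol O φ (LevelRaising.act ((D'.tr x δ : SL(2, ℤ)) : Mat) vE)
  have hdet : ∀ i, (β' i).det ≠ 0 := hβ'.det_ne_zero
  rw [op_interClass O hβ hX hβ' hadj hr hXr
    (act_ne_zero (by rw [(coe_mem_lvl δ).1]; exact one_ne_zero) vE_ne_zero), map_sum]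
  simp only [map_sub]
  rw [Finset.sum_sub_distrib, sub_eq_iff_eq_add,
    ← Equiv.sum_comp (D'.permEquiv toGL_injective δ)
      fun i => φ (interClass O (LevelRaising.act (β' i) vE)), ← Finset.sum_add_distrib]
  refine Finset.sum_congr rfl fun i _ => ?_
  rw [← LevelRaising.act_mul, exists_trans_fact O hβ' hX' δ i, LevelRaising.act_mul]
  exact (isSym_dualSymbol O φ).equiv _ (coe_mem_lvl _) _ (act_ne_zero (hdet _) vE_ne_zero)

end Adjugate

section Fricke

/-- Conjugation by the Fricke matrix, on integral matrices with lower left entry divisible by `N`. -/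
def frickeMat (N : ℕ) (x : Mat) : Mat :=
  mm (x 1 1) (-(x 1 0 / (N : ℤ))) (-((N : ℤ) * x 0 1)) (x 0 0)

variable [NeZero N]

lemma frickeMat_mm (a b c d : ℤ) :
    frickeMat N (mm a b ((N : ℤ) * c) d) = mm d (-c) (-((N : ℤ) * b)) a := by
  simp [frickeMat, mm, Int.mul_ediv_cancel_left _ (NeZero.ne (N : ℤ))]

omit [NeZero N] in
lemma exists_mm_of_dvd {x : Mat} (hx : (N : ℤ) ∣ x 1 0) :
    ∃ a b c d, x = mm a b ((N : ℤ) * c) d := by
  obtain ⟨c, hc⟩ := hx
  exact ⟨x 0 0, x 0 1, c, x 1 1, by conv_lhs => rw [mm_eta x, hc]⟩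

lemma frickeMat_mul {x y : Mat} (hx : (N : ℤ) ∣ x 1 0) (hy : (N : ℤ) ∣ y 1 0) :
    frickeMat N (x * y) = frickeMat N x * frickeMat N y := by
  obtain ⟨a, b, c, d, rfl⟩ := exists_mm_of_dvd hx
  obtain ⟨a', b', c', d', rfl⟩ := exists_mm_of_dvd hy
  rw [frickeMat_mm, frickeMat_mm, mm_mul, mm_mul,
    show (N : ℤ) * c * a' + d * ((N : ℤ) * c') = (N : ℤ) * (c * a' + d * c') by ring, frickeMat_mm,
    mm_inj]
  refine ⟨?_, ?_, ?_, ?_⟩ <;> ring

lemma frickeMat_frickeMat {x : Mat} (hx : (N : ℤ) ∣ x 1 0) : frickeMat N (frickeMat N x) = x := by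
  obtain ⟨a, b, c, d, rfl⟩ := exists_mm_of_dvd hx
  rw [frickeMat_mm, show -((N : ℤ) * b) = (N : ℤ) * -b by ring, frickeMat_mm, mm_inj]
  refine ⟨rfl, ?_, ?_, rfl⟩ <;> ring

omit [NeZero N] in
lemma dvd_frickeMat (x : Mat) : (N : ℤ) ∣ frickeMat N x 1 0 := by
  show (N : ℤ) ∣ -((N : ℤ) * x 0 1)
  exact dvd_neg.mpr (dvd_mul_right _ _)

lemma det_frickeMat {x : Mat} (hx : (N : ℤ) ∣ x 1 0) : (frickeMat N x).det = x.det := by
  obtain ⟨a, b, c, d, rfl⟩ := exists_mm_of_dvd hx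
  rw [frickeMat_mm, mm_det, mm_det]
  ring

lemma frickeMat_mem_lvl {x : Mat} (hx : x ∈ Lvl N) : frickeMat N x ∈ Lvl N :=
  ⟨(det_frickeMat hx.2).trans hx.1, dvd_frickeMat x⟩

lemma coe_frickeConj (γ : Gamma0 N) :
    ((frickeConj γ : SL(2, ℤ)) : Mat) = frickeMat N ((γ : SL(2, ℤ)) : Mat) := rfl

lemma frickeConj_negOne : frickeConj (negOne N) = negOne N :=
  Subtype.ext (Subtype.ext (by ext i j; fin_cases i <;> fin_cases j <;> simp [frickeConj, negOne]))

/-- The Fricke involution on cocycles with trivial coefficients. -/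
noncomputable def frickeCocycle : Cocycle (trivRep N O O) →ₗ[O] Cocycle (trivRep N O O) where
  toFun c := ⟨fun γ => c.1 (frickeConj γ), fun γ δ => by
      show c.1 (frickeConj (γ * δ)) = c.1 (frickeConj γ) + c.1 (frickeConj δ)
      rw [frickeConj_mul]; exact cocycle_trivial_mul _ (fun _ => rfl) c _ _,
    fun k hk => by
      rw [Set.mem_singleton_iff] at hk
      subst hk
      show c.1 (frickeConj (negOne N)) = 0
      rw [frickeConj_negOne]
      exact c.2.2 _ rfl⟩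
  map_add' _ _ := rfl
  map_smul' _ _ := rfl

lemma coboundaries_le_ker :
    coboundaries (gammaRep (trivRep N O O)) {negOne N} ≤
      LinearMap.ker (toCoh (trivRep N O O) ∘ₗ frickeCocycle O) := fun c hc => by
  obtain ⟨a, ha⟩ := hc
  rw [LinearMap.mem_ker, LinearMap.comp_apply, toCoh_eq_zero_iff]
  refine ⟨a, fun γ => ?_⟩
  show c.1 (frickeConj γ) = _
  rw [show c.1 (frickeConj γ) = cobound (gammaRep (trivRep N O O)) a (frickeConj γ) from
    (congrFun ha _).symm]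
  rfl

/-- The Fricke involution on `H¹` with trivial coefficients. -/
noncomputable def frickeCoh : Coh1 (trivRep N O O) →ₗ[O] Coh1 (trivRep N O O) :=
  (coboundaries (gammaRep (trivRep N O O)) {negOne N}).liftQ
    (toCoh (trivRep N O O) ∘ₗ frickeCocycle O) (coboundaries_le_ker O)

variable {O}

lemma frickeCoh_toCoh (c : Cocycle (trivRep N O O)) :
    ∃ c' : Cocycle (trivRep N O O), frickeCoh O (toCoh _ c) = toCoh _ c' ∧
      ∀ γ, c'.1 γ = c.1 (frickeConj γ) :=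
  ⟨frickeCocycle O c, rfl, fun _ => rfl⟩

lemma frickeCoh_frickeCoh (u : Coh1 (trivRep N O O)) : frickeCoh O (frickeCoh O u) = u := by
  obtain ⟨c, rfl⟩ := toCoh_surjective _ u
  obtain ⟨c', h, hc'⟩ := frickeCoh_toCoh c
  obtain ⟨c'', h', hc''⟩ := frickeCoh_toCoh c'
  rw [h, h']
  exact congrArg _ (Subtype.ext (funext fun γ => by rw [hc'', hc', frickeConj_frickeConj]))

variable {ι : Type*} {X : Set Mat} {β : ι → Mat}

lemma fact_frickeMat (hβ : IsFact X (Lvl N) β) (hXd : ∀ x ∈ X, (N : ℤ) ∣ x 1 0) :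
    IsFact (frickeMat N '' X) (Lvl N) fun i => frickeMat N (β i) where
  det_ne_zero i := by
    rw [det_frickeMat (hXd _ (by simpa using hβ.mem 1 (one_mem_lvl N) i))]
    exact hβ.det_ne_zero i
  mem y hy i := by
    refine ⟨frickeMat N y * β i, hβ.mem _ (frickeMat_mem_lvl hy) i, ?_⟩
    rw [frickeMat_mul (dvd_frickeMat y) (hXd _ (by simpa using hβ.mem 1 (one_mem_lvl N) i)),
      frickeMat_frickeMat hy.2]
  fact := by
    rintro _ ⟨x, hx, rfl⟩
    obtain ⟨i, y, hy, rfl⟩ := hβ.fact x hx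
    exact ⟨i, frickeMat N y, frickeMat_mem_lvl hy,
      frickeMat_mul hy.2 (hXd _ (by simpa using hβ.mem 1 (one_mem_lvl N) i))⟩
  unique := by
    intro i j y y' hy hy' e
    have hd := fun k => hXd _ (by simpa using hβ.mem 1 (one_mem_lvl N) k : β k ∈ X)
    refine hβ.unique (frickeMat_mem_lvl hy) (frickeMat_mem_lvl hy') ?_
    have e' := congrArg (frickeMat N) e
    rw [frickeMat_mul hy.2 (dvd_frickeMat _), frickeMat_mul hy'.2 (dvd_frickeMat _),
      frickeMat_frickeMat (hd i), frickeMat_frickeMat (hd j)] at e'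
    exact e'

lemma frickeMat_image_mul_mem (hX : ∀ x ∈ X, ∀ γ ∈ Lvl N, x * γ ∈ X)
    (hXd : ∀ x ∈ X, (N : ℤ) ∣ x 1 0) :
    ∀ x ∈ frickeMat N '' X, ∀ γ ∈ Lvl N, x * γ ∈ frickeMat N '' X := by
  rintro _ ⟨x, hx, rfl⟩ γ hγ
  refine ⟨x * frickeMat N γ, hX x hx _ (frickeMat_mem_lvl hγ), ?_⟩
  rw [frickeMat_mul (hXd x hx) (dvd_frickeMat γ), frickeMat_frickeMat hγ.2]

variable (O) in
/-- Conjugated representatives give the conjugated operator. -/
theorem factOp_frickeMat [Fintype ι] (hβ : IsFact X (Lvl N) β)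
    (hX : ∀ x ∈ X, ∀ γ ∈ Lvl N, x * γ ∈ X) (hXd : ∀ x ∈ X, (N : ℤ) ∣ x 1 0)
    (u : Coh1 (trivRep N O O)) :
    factOp O (fact_frickeMat hβ hXd) (frickeMat_image_mul_mem hX hXd) u =
      frickeCoh O (factOp O hβ hX (frickeCoh O u)) := by
  obtain ⟨c, rfl⟩ := toCoh_surjective _ u
  obtain ⟨c', h, hc'⟩ := frickeCoh_toCoh c
  rw [h, factOp_toCoh, factOp_toCoh]
  obtain ⟨c'', h', hc''⟩ := frickeCoh_toCoh ((factData O hβ hX).onCocycles toGL_injective c')
  rw [h']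
  refine congrArg _ (Subtype.ext (funext fun γ => ?_))
  rw [hc'']
  set D := factData O hβ hX
  set D' := factData O (fact_frickeMat hβ hXd) (frickeMat_image_mul_mem hX hXd)
  show ∑ i, c.1 (D'.tr i γ) = ∑ i, c'.1 (D.tr i (frickeConj γ))
  refine Finset.sum_congr rfl fun i _ => ?_
  rw [hc']
  refine congrArg c.1 ?_
  refine (D'.spec_unique toGL_injective (x := i) (y := D.perm (frickeConj γ) i) (γ := γ) ?_).2
  refine (matGL_mul_toGL_iff ((fact_frickeMat hβ hXd).det_ne_zero i)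
    ((fact_frickeMat hβ hXd).det_ne_zero _) _ _).mpr ?_
  have hd := fun k => hXd _ (by simpa using hβ.mem 1 (one_mem_lvl N) k : β k ∈ X)
  have e := congrArg (frickeMat N) (exists_trans_fact O hβ hX (frickeConj γ) i)
  rw [frickeMat_mul (hd i) (coe_mem_lvl _).2, frickeMat_mul (coe_mem_lvl _).2 (hd _),
    ← coe_frickeConj (frickeConj γ), frickeConj_frickeConj, ← coe_frickeConj] at e
  exact e

end Fricke

section Hecke

variable {ℓ : ℕ} [hℓ : Fact ℓ.Prime]

open Classical in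
/-- The integral matrix of a standard representative. -/
noncomputable def idxMat (x : Idx N ℓ) : Mat :=
  if h : x.1 = ∞ then mm ℓ 0 0 1
  else mm 1 (((OnePoint.ne_infty_iff_exists.mp h).choose).val : ℕ) 0 ℓ

omit hℓ in
lemma idxMat_coe {x : Idx N ℓ} {j : ZMod ℓ} (h : x.1 = (j : OnePoint (ZMod ℓ))) :
    idxMat x = mm 1 (j.val : ℕ) 0 ℓ := by
  have hne : x.1 ≠ ∞ := by rw [h]; exact OnePoint.coe_ne_infty j
  have hj := (OnePoint.ne_infty_iff_exists.mp hne).choose_spec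
  rw [idxMat, dif_neg hne, OnePoint.coe_injective (hj.trans h)]

lemma map_idxMat (x : Idx N ℓ) :
    (idxMat x).map (Int.cast : ℤ → ℝ) = ((HeckeJ0.rep x : GL (Fin 2) ℝ) : Matrix (Fin 2) (Fin 2) ℝ) := by
  rcases rep_cases x with ⟨j, hj, hx⟩ | ⟨hj, -, hx⟩ <;> unfold IsTri at hx <;> rw [hx]
  · rw [idxMat_coe hj]
    ext a b; fin_cases a <;> fin_cases b <;> simp [mm]
  · rw [idxMat, dif_pos hj]
    ext a b; fin_cases a <;> fin_cases b <;> simp [mm]

/-- The set of the `ℓ`-th operator: for `ℓ ∣ N` the upper left entry is prime to `ℓ`. -/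
def heckeSet (N ℓ : ℕ) : Set Mat := {x | x ∈ DetLevel N ℓ ∧ (ℓ ∣ N → ¬ (ℓ : ℤ) ∣ x 0 0)}

lemma not_dvd_diag {y : Mat} (hy : y ∈ Lvl N) (h : ℓ ∣ N) : ¬ (ℓ : ℤ) ∣ y 0 0 := fun h0 => by
  have h10 : (ℓ : ℤ) ∣ y 1 0 := (Int.natCast_dvd_natCast.mpr h).trans hy.2
  have hd := hy.1
  rw [Matrix.det_fin_two] at hd
  have : (ℓ : ℤ) ∣ 1 := hd ▸ dvd_sub (h0.mul_right _) (h10.mul_left _)
  exact hℓ.out.not_dvd_one (by exact_mod_cast this)

lemma heckeSet_mul_mem : ∀ x ∈ heckeSet N ℓ, ∀ γ ∈ Lvl N, x * γ ∈ heckeSet N ℓ := by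
  rintro x ⟨hx, hx0⟩ γ hγ
  refine ⟨by simpa using detLevel_mul hx hγ, fun h h0 => ?_⟩
  have h10 : (ℓ : ℤ) ∣ γ 1 0 := (Int.natCast_dvd_natCast.mpr h).trans hγ.2
  rw [Matrix.mul_apply, Fin.sum_univ_two, Int.dvd_add_left (h10.mul_left _)] at h0
  rcases (Nat.prime_iff_prime_int.mp hℓ.out).dvd_or_dvd h0 with h0 | h0
  exacts [hx0 h h0, not_dvd_diag hγ h h0]

theorem fact_idxMat : IsFact (heckeSet N ℓ) (Lvl N) (idxMat (N := N) (ℓ := ℓ)) := by
  have : NeZero ℓ := ⟨hℓ.out.ne_zero⟩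
  have hℓ0 : (ℓ : ℤ) ≠ 0 := by exact_mod_cast hℓ.out.ne_zero
  by_cases hℓN : ℓ ∣ N
  · have hidx : ∀ x : Idx N ℓ, ∃ j : ZMod ℓ, x.1 = (j : OnePoint (ZMod ℓ)) := fun x => by
      obtain ⟨j, hj⟩ := OnePoint.ne_infty_iff_exists.mp (x.2 hℓN)
      exact ⟨j, hj.symm⟩
    refine ⟨fun x => ?_, fun y hy x => ?_, ?_, ?_⟩
    · obtain ⟨j, hj⟩ := hidx x
      rw [idxMat_coe hj, mm_det]; simpa using hℓ0
    · obtain ⟨j, hj⟩ := hidx x
      rw [idxMat_coe hj]
      refine ⟨⟨?_, ?_⟩, fun _ h0 => not_dvd_diag hy hℓN ?_⟩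
      · rw [Matrix.det_mul, hy.1, mm_det]; ring
      · rw [mm_eta y, mm_mul]; simpa [mm] using hy.2
      · rw [mm_eta y, mm_mul] at h0; simpa [mm] using h0
    · rintro x ⟨hx, hx0⟩
      obtain ⟨i, u, hu⟩ := exists_fin_dvd hℓ.out (hx0 hℓN) (x 0 1)
      obtain ⟨c, hc⟩ := (Int.natCast_dvd_natCast.mpr hℓN).trans hx.2
      have hd := hx.1
      rw [Matrix.det_fin_two] at hd
      obtain ⟨v, hv⟩ : (ℓ : ℤ) ∣ x 1 1 - x 1 0 * (i : ℕ) := by
        refine dvd_sub ?_ (Dvd.dvd.mul_right ⟨c, hc⟩ _)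
        refine ((Nat.prime_iff_prime_int.mp hℓ.out).dvd_or_dvd (a := x 0 0) ?_).resolve_left (hx0 hℓN)
        exact ⟨1 + x 0 1 * c, by linear_combination hd + x 0 1 * hc⟩
      refine ⟨⟨((((i : ℕ) : ZMod ℓ)) : OnePoint (ZMod ℓ)), fun _ => OnePoint.coe_ne_infty _⟩,
        mm (x 0 0) u (x 1 0) v, mm_mem_detLevel.mpr ⟨?_, hx.2⟩, ?_⟩
      · apply mul_right_cancel₀ hℓ0
        linear_combination hd - x 0 0 * hv + x 1 0 * hu
      · erw [idxMat_coe (j := ((i : ℕ) : ZMod ℓ)) rfl]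
        rw [ZMod.val_cast_of_lt i.2]
        conv_lhs => rw [mm_eta x]
        rw [mm_mul, mm_inj]
        exact ⟨by ring, by linear_combination hu, by ring, by linear_combination hv⟩
    · intro x x' y y' hy hy' e
      obtain ⟨j, hj⟩ := hidx x
      obtain ⟨j', hj'⟩ := hidx x'
      rw [idxMat_coe hj, idxMat_coe hj', mm_eta y, mm_eta y', mm_mul, mm_mul, mm_inj] at e
      obtain ⟨e1, e2, -, -⟩ := e
      refine Subtype.ext ?_
      rw [hj, hj']
      refine congrArg _ ?_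
      rw [← ZMod.natCast_zmod_val j, ← ZMod.natCast_zmod_val j', ← sub_eq_zero,
        show ((j.val : ZMod ℓ)) - (j'.val : ZMod ℓ) = (((j.val : ℤ) - (j'.val : ℤ) : ℤ) : ZMod ℓ) by
          push_cast; ring, ZMod.intCast_zmod_eq_zero_iff_dvd]
      refine ((Nat.prime_iff_prime_int.mp hℓ.out).dvd_or_dvd (a := y 0 0) ?_).resolve_left
        (not_dvd_diag hy hℓN)
      refine ⟨y' 0 1 - y 0 1, ?_⟩
      linear_combination e2 - (j'.val : ℤ) * e1
  · have hval : ∀ i, idxMat (idxEquiv (N := N) hℓN i) = heckMat ℓ i := fun i =>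
      map_cast_injective ((map_idxMat _).trans (rep_idxEquiv hℓN i))
    have hset : heckeSet N ℓ = DetLevel N ℓ :=
      Set.ext fun x => ⟨fun h => h.1, fun h => ⟨h, fun h' => absurd h' hℓN⟩⟩
    have hf := fact_heckMat_one hℓ.out hℓN
    rw [hset]
    refine ⟨fun x => ?_, fun y hy x => ?_, fun x hx => ?_, ?_⟩
    · obtain ⟨i, rfl⟩ := (idxEquiv (N := N) hℓN).surjective x
      rw [hval]; exact hf.det_ne_zero i
    · obtain ⟨i, rfl⟩ := (idxEquiv (N := N) hℓN).surjective x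
      rw [hval]; exact hf.mem y hy i
    · obtain ⟨i, y, hy, h⟩ := hf.fact x hx
      exact ⟨idxEquiv hℓN i, y, hy, by rw [hval, h]⟩
    · intro x x' y y' hy hy' e
      obtain ⟨i, rfl⟩ := (idxEquiv (N := N) hℓN).surjective x
      obtain ⟨i', rfl⟩ := (idxEquiv (N := N) hℓN).surjective x'
      rw [hval, hval] at e
      rw [hf.unique hy hy' e]

/-- The Hecke operator as the operator of its set. -/
theorem heckeOp_eq_factOp [NeZero ℓ] (u : Coh1 (trivRep N O O)) :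
    heckeOp (trivRep N O O) ℓ u =
      factOp O (fact_idxMat (N := N) (ℓ := ℓ)) heckeSet_mul_mem u := by
  obtain ⟨c, rfl⟩ := toCoh_surjective _ u
  rw [heckeOp_toCoh, factOp_toCoh]
  refine congrArg _ (Subtype.ext (funext fun γ => ?_))
  set D := factData O (fact_idxMat (N := N) (ℓ := ℓ)) heckeSet_mul_mem
  set T := heckeData (trivRep N O O) ℓ
  show ∑ x : Idx N ℓ, c.1 (T.tr x γ) = ∑ x : Idx N ℓ, c.1 (D.tr x γ)
  refine Finset.sum_congr rfl fun x _ => congrArg c.1 ?_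
  refine ((D.spec_unique toGL_injective (y := T.perm γ x) ?_).2).symm
  refine (matGL_mul_toGL_iff (fact_idxMat.det_ne_zero x) (fact_idxMat.det_ne_zero _) _ _).mpr ?_
  have h := congrArg Units.val (T.mul_spec x γ)
  refine map_cast_injective ?_
  show (_ * _ : Mat).map (Int.cast : ℤ → ℝ) = (_ * _ : Mat).map _
  rw [Matrix.map_mul_intCast, Matrix.map_mul_intCast, map_idxMat, map_idxMat, ← val_toGL,
    ← val_toGL]
  exact h

variable [NeZero N]

omit hℓ in
lemma adjugate_image_heckeSet :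
    Matrix.adjugate '' heckeSet N ℓ = frickeMat N '' heckeSet N ℓ := by
  have key : ∀ x ∈ heckeSet N ℓ, ∃ y ∈ heckeSet N ℓ, frickeMat N y = x.adjugate ∧
      y.adjugate = frickeMat N x := by
    rintro x ⟨⟨hd, hN⟩, h0⟩
    obtain ⟨a, b, c, d, rfl⟩ := exists_mm_of_dvd hN
    refine ⟨mm a c ((N : ℤ) * b) d, ⟨mm_mem_detLevel.mpr ⟨?_, dvd_mul_right _ _⟩, ?_⟩, ?_, ?_⟩
    · rw [mm_det] at hd; linear_combination hd
    · simpa [mm] using h0
    · rw [frickeMat_mm, adjugate_mm, mm_inj]; exact ⟨rfl, rfl, rfl, rfl⟩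
    · rw [frickeMat_mm, adjugate_mm, mm_inj]; exact ⟨rfl, rfl, rfl, rfl⟩
  refine Set.Subset.antisymm ?_ ?_ <;> rintro _ ⟨x, hx, rfl⟩ <;> obtain ⟨y, hy, h1, h2⟩ := key x hx
  exacts [⟨y, hy, h1⟩, ⟨y, hy, h2⟩]

/-- **Transposing a Hecke operator conjugates it by the Fricke involution.** -/
theorem dualClass_comp_heckeOp_fricke (φ : Coh1 (trivRep N O O) →ₗ[O] O) :
    dualClass O (φ ∘ₗ heckeOp _ ℓ) =
      frickeCoh O (heckeOp _ ℓ (frickeCoh O (dualClass O φ))) := by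
  have : NeZero ℓ := ⟨hℓ.out.ne_zero⟩
  have hXd : ∀ x ∈ heckeSet N ℓ, (N : ℤ) ∣ x 1 0 := fun x hx => hx.1.2
  rw [heckeOp_eq_factOp O, ← factOp_frickeMat O fact_idxMat heckeSet_mul_mem hXd,
    ← dualClass_comp_op O fact_idxMat heckeSet_mul_mem _ _ adjugate_image_heckeSet
      (r := (ℓ : ℤ)) (by exact_mod_cast hℓ.out.pos) (fun x hx => hx.1.1)]
  exact congrArg _ (LinearMap.ext fun u => congrArg φ (heckeOp_eq_factOp O u))

end Hecke

end Fermat.Agent.TwoAdic.Pairing
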