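import Fermat.Agent.TwoAdic.Pairing.EigenBound
import Fermat.Agent.HeckeModule.BaseChange
import Fermat.Agent.HeckeModule.Flat
import Mathlib.RingTheory.Nakayama
import Mathlib.RingTheory.LocalRing.ResidueField.Defs
import Mathlib.LinearAlgebra.Dimension.Finite

/-!
Quotients of the localised `H¹` are generated by as many elements as the cotangent space of the
residual eigensystem has dimensions.
-/

set_option autoImplicit false

open CongruenceSubgroup IsLocalRing
open scoped MatrixGroups

noncomputable section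

universe uP

namespace Fermat.Agent.TwoAdic.Pairing

open HeckeJ0 LevelRaising HeckeModule

variable {O : Type} [CommRing O] [IsLocalRing O] [IsNoetherianRing O] {N : ℕ} [NeZero N]

attribute [local instance] Ideal.Quotient.field

local notation "κ" => O ⧸ maximalIdeal O

variable {χ : (ZMod N)ˣ →* O} (hχ : ∀ u, χ u - 1 ∈ maximalIdeal O)

include hχ in
omit [IsNoetherianRing O] [NeZero N] in
lemma trivRep_eq_scalarRep (u : (ZMod N)ˣ) (a : κ) :
    scalarRep χ κ u a = trivRep N κ κ u a := by
  obtain ⟨b, rfl⟩ := Ideal.Quotient.mk_surjective a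
  show χ u • Ideal.Quotient.mk (maximalIdeal O) b = Ideal.Quotient.mk _ b
  rw [Algebra.smul_def, Ideal.Quotient.algebraMap_eq, ← map_mul, Ideal.Quotient.eq,
    show χ u * b - b = (χ u - 1) * b by ring]
  exact Ideal.mul_mem_right _ _ (hχ u)

/-- Classes modulo the maximal ideal, with trivial action. -/
def reduceCoh : Coh1 (scalarRep χ κ) ≃+ Coh1 (trivRep N κ κ) :=
  sameCoh (ρ := trivRep N κ κ) (ρ' := scalarRep χ κ) (trivRep_eq_scalarRep hχ)

omit [IsNoetherianRing O] [NeZero N] in
lemma reduceCoh_poly_smul (a : HeckePoly O) (u : Coh1 (scalarRep χ κ)) :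
    reduceCoh hχ (a • u) =
      MvPolynomial.map (Ideal.Quotient.mk (maximalIdeal O)) a • reduceCoh hχ u :=
  sameCoh_poly_smul _ (f := Ideal.Quotient.mk (maximalIdeal O))
    (fun r x => Algebra.smul_def r x) a u

variable (S : Submonoid (HeckePoly O))

/-- The reduction of a localised class is `z`. -/
def ReducesTo (x : CohChar S χ O) (z : Coh1 (trivRep N κ κ)) : Prop :=
  charMap S χ (maximalIdeal O).mkQ x = LocalizedModule.mk ((reduceCoh hχ).symm z) 1

variable {hχ S}

omit [IsNoetherianRing O] [NeZero N] in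
lemma ReducesTo.add {x y : CohChar S χ O} {z w : Coh1 (trivRep N κ κ)}
    (hx : ReducesTo hχ S x z) (hy : ReducesTo hχ S y w) : ReducesTo hχ S (x + y) (z + w) := by
  rw [ReducesTo, map_add, hx, hy, map_add, LocalizedModule.mk_add_mk, one_smul, one_smul, one_mul]

omit [IsNoetherianRing O] [NeZero N] in
lemma ReducesTo.poly_smul {x : CohChar S χ O} {z : Coh1 (trivRep N κ κ)}
    (hx : ReducesTo hχ S x z) (a : HeckePoly O) :
    ReducesTo hχ S (a • x) (MvPolynomial.map (Ideal.Quotient.mk (maximalIdeal O)) a • z) := by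
  rw [ReducesTo, map_smul, hx, LocalizedModule.smul'_mk]
  refine congrArg (LocalizedModule.mk · 1) ((AddEquiv.eq_symm_apply _).mpr ?_)
  rw [reduceCoh_poly_smul, AddEquiv.apply_symm_apply]

omit [NeZero N] in
lemma ReducesTo.sub_mem (h : ExactHyp S χ) {x y : CohChar S χ O} {z : Coh1 (trivRep N κ κ)}
    (hx : ReducesTo hχ S x z) (hy : ReducesTo hχ S y z) :
    x - y ∈ maximalIdeal O • (⊤ : Submodule O (CohChar S χ O)) :=
  (ker_charMap_mkQ h _ _).mp (by rw [map_sub, hx, hy, sub_self])

omit [IsNoetherianRing O] [NeZero N] in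
lemma exists_reducesTo (h : ExactHyp S χ) (z : Coh1 (trivRep N κ κ)) :
    ∃ x : CohChar S χ O, ReducesTo hχ S x z :=
  charMap_surjective h _ (maximalIdeal O).mkQ_surjective _

variable {P : Type uP} [AddCommGroup P] [Module O P]

include hχ in
/-- **Generators.** A quotient on which the Hecke polynomials act residually by `ψ` is generated
modulo `W` by as many elements as the cotangent space has dimensions. -/
theorem exists_generators (h : ExactHyp S χ) (ψ : HeckePoly κ →ₐ[κ] κ)
    (hS : ∀ s ∈ S, ψ (MvPolynomial.map (Ideal.Quotient.mk (maximalIdeal O)) s) ≠ 0)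
    (q : CohChar S χ O →ₗ[O] P) (W : Submodule O P) (hq : LinearMap.range q ⊔ W = ⊤)
    (hW : maximalIdeal O • (⊤ : Submodule O P) ≤ W)
    (hcompat : ∀ (a : HeckePoly O) (r : O),
      Ideal.Quotient.mk (maximalIdeal O) r =
          ψ (MvPolynomial.map (Ideal.Quotient.mk (maximalIdeal O)) a) →
        ∀ x, q (a • x) - r • q x ∈ W) :
    ∃ m : Fin (Module.finrank κ (Coh1 (trivRep N κ κ) ⧸ cotangentKer (N := N) ψ)) → P,
      Submodule.span O (Set.range m) ⊔ W = ⊤ := by
  classical
  have : Module.Finite κ (Coh1 (trivRep N κ κ)) := finite_coh1 _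
  set mkk := Ideal.Quotient.mk (maximalIdeal O)
  have hmap : Function.Surjective (MvPolynomial.map (σ := Nat.Primes) mkk) :=
    MvPolynomial.map_surjective mkk Ideal.Quotient.mk_surjective
  -- elements reducing to a member of the kernel lie in `W`
  have hmax : ∀ x ∈ maximalIdeal O • (⊤ : Submodule O (CohChar S χ O)), q x ∈ W := fun x hx =>
    hW (by
      have := Submodule.mem_map_of_mem (f := q) hx
      rw [Submodule.map_smul''] at this
      exact Submodule.smul_mono le_rfl le_top this)
  have hker : ∀ z ∈ cotangentKer (N := N) ψ, ∀ x, ReducesTo hχ S x z → q x ∈ W := by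
    intro z hz
    refine Submodule.smul_induction_on
      (show z ∈ RingHom.ker ψ • (⊤ : Submodule (HeckePoly κ) (Coh1 (trivRep N κ κ))) from hz)
      (fun a ha v _ x hx => ?_) fun z w hz hw x hx => ?_
    · obtain ⟨a', rfl⟩ := hmap a
      obtain ⟨y, hy⟩ := exists_reducesTo (hχ := hχ) h v
      have h1 := hcompat a' 0 (by rw [map_zero]; exact (RingHom.mem_ker.mp ha).symm) y
      rw [zero_smul, sub_zero] at h1
      have h2 := W.add_mem (hmax _ (hx.sub_mem h (hy.poly_smul a'))) h1
      rwa [map_sub, sub_add_cancel] at h2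
    · obtain ⟨y, hy⟩ := exists_reducesTo (hχ := hχ) h z
      obtain ⟨y', hy'⟩ := exists_reducesTo (hχ := hχ) h w
      have h2 := W.add_mem (hmax _ (hx.sub_mem h (hy.add hy'))) (W.add_mem (hz y hy) (hw y' hy'))
      rwa [map_sub, map_add, sub_add_cancel] at h2
  let b := Module.finBasis κ (Coh1 (trivRep N κ κ) ⧸ cotangentKer (N := N) ψ)
  choose u hu using fun i => (cotangentKer (N := N) ψ).mkQ_surjective (b i)
  choose y hy using fun i => exists_reducesTo (hχ := hχ) h (u i)
  refine ⟨fun i => q (y i), top_le_iff.mp (hq.ge.trans (sup_le ?_ le_sup_right))⟩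
  rintro _ ⟨x, rfl⟩
  set Z := Submodule.span O (Set.range fun i => q (y i)) ⊔ W
  obtain ⟨⟨v, s⟩, hvs⟩ : ∃ p : Coh1 (scalarRep χ κ) × S,
      charMap S χ (maximalIdeal O).mkQ x = LocalizedModule.mk p.1 p.2 := by
    induction charMap S χ (maximalIdeal O).mkQ x using LocalizedModule.induction_on with
    | _ u s => exact ⟨(u, s), rfl⟩
  have hred : ReducesTo hχ S ((s : HeckePoly O) • x) (reduceCoh hχ v) := by
    rw [ReducesTo, map_smul, hvs, AddEquiv.symm_apply_apply, LocalizedModule.smul'_mk,
      ← Submonoid.smul_def, LocalizedModule.mk_cancel]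
  choose r hr using fun i => Ideal.Quotient.mk_surjective
    (b.repr ((cotangentKer (N := N) ψ).mkQ (reduceCoh hχ v)) i)
  have hz : reduceCoh hχ v - ∑ i, mkk (r i) • u i ∈ cotangentKer (N := N) ψ := by
    rw [← Submodule.Quotient.mk_eq_zero, ← Submodule.mkQ_apply, map_sub, map_sum, sub_eq_zero]
    refine (b.sum_repr _).symm.trans (Finset.sum_congr rfl fun i _ => ?_)
    rw [map_smul, hu, hr]
  have hsum : ∀ t : Finset (Fin _), ReducesTo hχ S (∑ i ∈ t, (r i) • y i) (∑ i ∈ t, mkk (r i) • u i) := by
    intro t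
    induction t using Finset.induction with
    | empty => rw [Finset.sum_empty, Finset.sum_empty, ReducesTo, map_zero, map_zero]; exact (LocalizedModule.zero_mk _).symm
    | insert i t hi ih =>
      rw [Finset.sum_insert hi, Finset.sum_insert hi]
      refine ReducesTo.add ?_ ih
      have h1 := (hy i).poly_smul (MvPolynomial.C (r i))
      rwa [MvPolynomial.map_C, ← MvPolynomial.algebraMap_eq, ← MvPolynomial.algebraMap_eq,
        algebraMap_smul, algebraMap_smul] at h1
  obtain ⟨w, hw⟩ := exists_reducesTo (hχ := hχ) h (reduceCoh hχ v - ∑ i, mkk (r i) • u i)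
  have hsx : q ((s : HeckePoly O) • x) ∈ Z := by
    have hd := (hsum Finset.univ).add hw
    rw [add_sub_cancel] at hd
    have h1 : q ((s : HeckePoly O) • x) - q (∑ i, r i • y i + w) ∈ Z := by
      rw [← map_sub]
      exact Submodule.mem_sup_right (hmax _ (hred.sub_mem h hd))
    have h2 : q (∑ i, r i • y i + w) ∈ Z := by
      rw [map_add, map_sum]
      refine Z.add_mem (Z.sum_mem fun i _ => ?_) (Submodule.mem_sup_right (hker _ hz _ hw))
      rw [map_smul]
      exact Z.smul_mem _ (Submodule.mem_sup_left (Submodule.subset_span ⟨i, rfl⟩))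
    simpa using Z.add_mem h1 h2
  obtain ⟨ρ, hρ⟩ := Ideal.Quotient.mk_surjective (ψ (MvPolynomial.map mkk (s : HeckePoly O)))
  have hunit : IsUnit ρ := by
    rw [← IsLocalRing.notMem_maximalIdeal, ← Ideal.Quotient.eq_zero_iff_mem, hρ]
    exact hS _ s.2
  have h3 : ρ • q x ∈ Z := by
    simpa using Z.sub_mem hsx (Submodule.mem_sup_right (hcompat s ρ hρ x))
  obtain ⟨ρ', rfl⟩ := hunit
  simpa [smul_smul] using Z.smul_mem (↑ρ'⁻¹ : O) h3

end Fermat.Agent.TwoAdic.Pairing
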