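import Fermat.Agent.TwoAdic.Pairing.NewQuotMap
import Fermat.Agent.TwoAdic.Pairing.TwoGen

/-!
The signed new quotient is generated by two elements over its local Hecke algebra.
-/

set_option autoImplicit false

open IsLocalRing CongruenceSubgroup

universe uT

namespace Fermat.Agent.TwoAdic.ALSetup

open HeckeJ0 LevelRaising HeckeModule

attribute [local instance] ALSetup.isPrime Ideal.Quotient.field

variable {O : Type} [CommRing O] [IsLocalRing O] [IsNoetherianRing O]
  [IsAdicComplete (maximalIdeal O) O] (T : ALSetup O) {V : Finset ℕ} (hV : V ⊆ T.W) (B : Finset ℕ)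
  {R : Type uT} [CommRing R] [IsLocalRing R] [Algebra O R] [IsLocalHom (algebraMap O R)]
  [Module R (T.NewQuot O hV B)] [IsScalarTower O R (T.NewQuot O hV B)]

local notation "κ" => O ⧸ maximalIdeal O

/-- **The new quotient is generated by two elements.** Hypotheses: the cotangent space of the
eigensystem `ψ` has dimension at most two (multiplicity one); `ψ` extends the prime `T.m`; the
elements `t l` of `R` act as `U_l` or `T_l` on signed classes for `l ∉ V`, as their images under
the projection for `l ∈ V ∖ B`, and are congruent to `ψ`; `ψ` is `-c` residually on `V ∩ B`. -/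
theorem exists_two_generators_newQuot [Module.Finite R (T.NewQuot O hV B)]
    [NeZero (T.level V)] (ψ : HeckePoly κ →ₐ[κ] κ)
    (hψ2 : Module.finrank κ
      (Coh1 (trivRep (T.level V) κ κ) ⧸ Pairing.cotangentKer (N := T.level V) ψ) ≤ 2)
    (hm : ∀ a : AwayPoly O T.S, a ∉ T.m →
      ψ (MvPolynomial.map (Ideal.Quotient.mk (maximalIdeal O)) (awayIncl O T.S a)) ≠ 0)
    (t : Nat.Primes → R)
    (hact : ∀ l : Nat.Primes, (l : ℕ) ∉ V → ∀ y z : T.signed O hV,
      (z : T.H V O) = (MvPolynomial.X l : HeckePoly O) • (y : T.H V O) →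
        t l • (Submodule.Quotient.mk y : T.NewQuot O hV B) = Submodule.Quotient.mk z)
    (hact' : ∀ l : Nat.Primes, (l : ℕ) ∈ V → (l : ℕ) ∉ B → ∀ x : T.H V O,
      T.toNew hV B ((MvPolynomial.X l : HeckePoly O) • x) = t l • T.toNew hV B x)
    (hres : ∀ l : Nat.Primes, ((l : ℕ) ∈ V → (l : ℕ) ∉ B) → ∀ r : O,
      Ideal.Quotient.mk (maximalIdeal O) r = ψ (MvPolynomial.X l) →
        t l - algebraMap O R r ∈ maximalIdeal R)
    (hold : ∀ l : Nat.Primes, (l : ℕ) ∈ V → (l : ℕ) ∈ B →
      ψ (MvPolynomial.X l) = Ideal.Quotient.mk (maximalIdeal O) (-T.c l)) :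
    ∃ g : Fin 2 → T.NewQuot O hV B, Submodule.span R (Set.range g) = ⊤ := by
  classical
  set mkk := Ideal.Quotient.mk (maximalIdeal O)
  let t' : Nat.Primes → R := fun l =>
    if (l : ℕ) ∈ V ∧ (l : ℕ) ∈ B then algebraMap O R (-T.c l) else t l
  have hX : ∀ (l : Nat.Primes) (x : T.H V O),
      T.toNew hV B ((MvPolynomial.X l : HeckePoly O) • x) = t' l • T.toNew hV B x := by
    intro l x
    have : Fact (l : ℕ).Prime := ⟨l.2⟩
    by_cases hl : (l : ℕ) ∈ V ∧ (l : ℕ) ∈ B
    · rw [show t' l = algebraMap O R (-T.c l) from if_pos hl, algebraMap_smul]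
      exact T.toNew_X (b := (l : ℕ)) hV hl.1 hl.2 x
    · rw [show t' l = t l from if_neg hl]
      by_cases hlV : (l : ℕ) ∈ V
      · exact hact' l hlV (fun h => hl ⟨hlV, h⟩) x
      · let φ : Module.End O (T.H V O) :=
          DistribMulAction.toModuleEnd O (T.H V O) (MvPolynomial.X l : HeckePoly O)
        refine T.toNew_comp hV B φ (fun e he y => ?_)
          (DistribMulAction.toModuleEnd O (T.NewQuot O hV B) (t l))
          (fun y z hz => hact l hlV y z hz) x
        exact T.X_smul_w (l := (l : ℕ)) hV he (fun h => hlV (h ▸ he)) y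
  have hr' : ∀ (l : Nat.Primes) (r : O), mkk r = ψ (MvPolynomial.X l) →
      t' l - algebraMap O R r ∈ maximalIdeal R := by
    intro l r hr
    by_cases hl : (l : ℕ) ∈ V ∧ (l : ℕ) ∈ B
    · rw [show t' l = algebraMap O R (-T.c l) from if_pos hl, ← map_sub]
      refine map_nonunit (algebraMap O R) _ ?_
      exact Ideal.Quotient.eq.mp ((hold l hl.1 hl.2).symm.trans hr.symm)
    · rw [show t' l = t l from if_neg hl]
      exact hres l (fun h h' => hl ⟨h, h'⟩) r hr
  let ev : HeckePoly O →ₐ[O] R := MvPolynomial.aeval t'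
  have hev : ∀ (a : HeckePoly O) (x : T.H V O),
      T.toNew hV B (a • x) = ev a • T.toNew hV B x := by
    intro a
    induction a using MvPolynomial.induction_on with
    | C r =>
      intro x
      rw [← MvPolynomial.algebraMap_eq, algebraMap_smul, AlgHom.commutes, algebraMap_smul, map_smul]
    | add a b ha hb => intro x; rw [add_smul, map_add, ha, hb, map_add, add_smul]
    | mul_X a l ha =>
      intro x
      rw [mul_smul, ha, hX, map_mul, mul_smul, show ev (MvPolynomial.X l) = t' l from
        MvPolynomial.aeval_X _ _]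
  have hevres : ∀ (a : HeckePoly O) (r : O), mkk r = ψ (MvPolynomial.map mkk a) →
      ev a - algebraMap O R r ∈ maximalIdeal R := by
    intro a
    induction a using MvPolynomial.induction_on with
    | C c =>
      intro r hr
      rw [MvPolynomial.map_C, ← MvPolynomial.algebraMap_eq, AlgHom.commutes,
        Algebra.algebraMap_self, RingHom.id_apply] at hr
      rw [← MvPolynomial.algebraMap_eq, AlgHom.commutes, ← map_sub]
      exact map_nonunit (algebraMap O R) _ (Ideal.Quotient.eq.mp hr.symm)
    | add a b ha hb =>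
      intro r hr
      obtain ⟨ra, hra⟩ := Ideal.Quotient.mk_surjective (ψ (MvPolynomial.map mkk a))
      have hb' := hb (r - ra) (by rw [map_sub, hr, hra, map_add, map_add, add_sub_cancel_left])
      have h := add_mem (ha ra hra) hb'
      rw [map_sub] at h
      rw [map_add]
      convert h using 1
      ring
    | mul_X a l ha =>
      intro r hr
      obtain ⟨ra, hra⟩ := Ideal.Quotient.mk_surjective (ψ (MvPolynomial.map mkk a))
      obtain ⟨rl, hrl⟩ := Ideal.Quotient.mk_surjective (ψ (MvPolynomial.X l))
      have h0 : r - ra * rl ∈ maximalIdeal O := Ideal.Quotient.eq.mp (by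
        rw [hr, map_mul, map_mul, MvPolynomial.map_X, map_mul, ← hra, ← hrl])
      have h := sub_mem (add_mem (Ideal.mul_mem_right (t' l) _ (ha ra hra))
        (Ideal.mul_mem_left _ (algebraMap O R ra) (hr' l rl hrl)))
        (map_nonunit (algebraMap O R) _ h0)
      rw [map_mul, show ev (MvPolynomial.X l) = t' l from MvPolynomial.aeval_X _ _]
      rw [map_sub, map_mul] at h
      convert h using 1
      ring
  refine Pairing.exists_two_generators_local (χ := T.char V) (S := awayMonoid T.m)
    (fun u => ?_) (T.exact hV) ψ hψ2 ?_ (T.toNew hV B) (T.toNew_surjective hV B) ev hev hevres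
  · exact T.char_one _
  · rintro _ ⟨a, ha, rfl⟩
    exact hm a ha

end Fermat.Agent.TwoAdic.ALSetup
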