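import Fermat.Agent.TwoAdic.Modules.NonVanishing

/-!
At an Atkin–Lehner prime `q` the sum `U_q + c w_q` lands in the image of the level without `q`.
-/

set_option autoImplicit false

open CongruenceSubgroup IsLocalRing
open scoped MatrixGroups

universe uO uA

namespace Fermat.Agent.TwoAdic.Pairing

open HeckeJ0 LevelRaising HeckeModule

variable {O : Type uO} [CommRing O] {A : Type uA} [AddCommGroup A] [Module O A]
  {N N' M q : ℕ} [hq : Fact q.Prime] (hM : M ∣ N) (hM' : M ∣ N') (χ : (ZMod M)ˣ →* O)

/-- `res ∘ (twisted trace) = U_q + c w_q`. -/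
theorem exists_charDegen_eq (hqN : ¬ q ∣ N) (hN' : q * N = N') {W' : Finset ℕ}
    (hW' : IsALPrimes N' W') (hqW : q ∈ W') (hqM : q.Coprime M) (c : O)
    (hc : c * c = χ (ZMod.unitOfCoprime q hqM)) (h : 1 * N ∣ N')
    (u : Coh1 (scalarRep (levelChar hM' χ) A)) :
    ∃ v : Coh1 (scalarRep (levelChar hM χ) A),
      charDegen A hM χ hM' one_ne_zero h v
        = heckeOp _ q u + c • alOp A hW' hqW hM' χ hqM c u := by
  subst hN'
  have : NeZero q := ⟨hq.out.ne_zero⟩
  refine ⟨charTraceTwist A hM χ hqN hM' u, ?_⟩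
  obtain ⟨d, rfl⟩ := toCoh_surjective _ u
  obtain ⟨F, hF⟩ := exists_isEquivariant (toGL (q * N)) toGL_injective d
  set D₁ := charTraceTwistData A hM χ hqN hM'
  set D₂ := charDegenData A hM χ hM' one_ne_zero h
  set DU := heckeData (scalarRep (levelChar hM' χ) A) q
  set DW := alData A hW' hqW hM' χ hqM c
  show toCoh _ (D₂.onCocycles toGL_injective (D₁.onCocycles toGL_injective d))
    = toCoh _ (DU.onCocycles toGL_injective d) + c • toCoh _ (DW.onCocycles toGL_injective d)
  rw [← map_smul, ← map_add]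
  obtain ⟨E, hE⟩ := exists_finEquiv (N := q * N) (ℓ := q) (dvd_mul_right q N)
  have hX := alMat_mem hW' hqW
  have hD := fact_degenReps (q := q) hqN
  have hnone : degenReps N q none ∈ alSet (q * N) q := by
    refine ⟨det_degenReps hqN none, ?_, ?_, ?_⟩ <;> simp [degenReps]
  obtain ⟨γ0, hγ0⟩ := exists_eq_mul_alSet (dvd_mul_right q N) hq.out.ne_zero hnone hX
  have hχ : levelChar hM' χ (dUnit (q * N) γ0) = χ (ZMod.unitOfCoprime q hqM) := by
    refine levelChar_dUnit hM' χ γ0 _ ?_
    have hd := cast_lowerRight hM' γ0 hγ0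
    rw [(alMat_cast hW' hqW hM' hqM).2, mul_one] at hd
    rw [← hd, ZMod.coe_unitOfCoprime]
    simp [degenReps]
  have h1 := D₂.isEquivariant_act toGL_injective (D₁.isEquivariant_act toGL_injective hF)
  have h2 := (DU.isEquivariant_act toGL_injective hF).add
    ((DW.isEquivariant_act toGL_injective hF).smul c)
  refine cls_eq_of_equivariant h1 h2 (d.1 γ0) fun X => ?_
  have key : ∀ Y, F (matGL (degenReps N q none) (hD.det_ne_zero none) * Y)
      = d.1 γ0 + c • c • F (matGL (alMat (q * N) q) (alMat_det_ne_zero hW' hqW) * Y) := by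
    intro Y
    have e : matGL (degenReps N q none) (hD.det_ne_zero none)
        = toGL (q * N) γ0 * matGL (alMat (q * N) q) (alMat_det_ne_zero hW' hqW) := by
      refine Units.ext ?_
      rw [Units.val_mul, val_matGL, val_toGL, val_matGL, ← Matrix.map_mul_intCast, hγ0]
    rw [e, mul_assoc, hF, gammaRep_scalar, hχ, ← hc, smul_smul c c]
  have keyU : ∀ i, matGL (degenReps N q (some i)) (hD.det_ne_zero (some i)) = rep (E i) := fun i => by
    refine Units.ext ?_
    rw [val_matGL, (hE i).1]
    rfl
  simp only [Pi.add_apply, Pi.smul_apply]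
  show (∑ _x : Unit, (LinearMap.id : A →ₗ[O] A) (∑ i : Option (Fin q),
      (LinearMap.id : A →ₗ[O] A) (F (matGL (degenReps N q i) (hD.det_ne_zero i) *
        (degenMat 1 * X)))))
    = (∑ x : Idx (q * N) q, scalarRep (levelChar hM' χ) A (aUnit x) (F (rep x * X)))
      + c • (∑ _x : Unit, (c • LinearMap.id : A →ₗ[O] A)
          (F (matGL (alMat (q * N) q) (alMat_det_ne_zero hW' hqW) * X))) + d.1 γ0
  rw [degenMat_one, one_mul]
  simp only [Finset.univ_unique, Finset.sum_singleton]
  rw [Fintype.sum_option, key,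
    ← E.sum_comp (fun x => scalarRep (levelChar hM' χ) A (aUnit x) (F (rep x * X)))]
  simp only [LinearMap.id_apply, LinearMap.smul_apply, keyU, (hE _).2, map_one,
    Module.End.one_apply]
  abel

end Fermat.Agent.TwoAdic.Pairing

namespace Fermat.Agent.TwoAdic.ALSetup

open HeckeJ0 LevelRaising HeckeModule

attribute [local instance] ALSetup.isPrime

variable {O : Type} [CommRing O] [IsLocalRing O] (T : ALSetup O)
  {A : Type uA} [AddCommGroup A] [Module O A] {V : Finset ℕ} (hV : V ⊆ T.W) {e : ℕ} (he : e ∈ V)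

include he in
/-- `U_e + c w_e` lands in the image of the level without `e`. -/
theorem exists_res_eq [hq : Fact e.Prime] (x : T.H V A) :
    ∃ z : T.H (V.erase e) A, T.res A hV (V.erase_subset e) z
      = (MvPolynomial.X (⟨e, hq.out⟩ : Nat.Primes) : HeckePoly O) • x
        + T.c e • T.w A hV e x := by
  have hUV : insert e (V.erase e) = V := Finset.insert_erase he
  have hN' : e * T.level (V.erase e) = T.level V := by
    rw [← T.level_insert (Finset.notMem_erase e V), hUV]
  induction x using LocalizedModule.induction_on with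
  | _ u s =>
    obtain ⟨v, hv⟩ := Pairing.exists_charDegen_eq (T.dvd_level (V.erase e)) (T.dvd_level V) T.χ
      (T.not_dvd_face hV (Finset.notMem_erase e V) hUV) hN' (T.isAL hV) he (T.coprime_M (hV he))
      (T.c e) (T.sq e (hV he) _) (T.one_mul_level_dvd (V.erase_subset e)) u
    refine ⟨LocalizedModule.mk v s, ?_⟩
    rw [T.res_mk, hv, T.w_mk hV he, LocalizedModule.smul'_mk, LocalizedModule.smul'_mk, X_smul,
      LocalizedModule.mk_add_mk, ← smul_add]
    exact (LocalizedModule.mk_cancel_common_left s s _).symm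

end Fermat.Agent.TwoAdic.ALSetup
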