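import Fermat.Agent.TwoAdic.Pairing.SignedNorm
import Fermat.Agent.TwoAdic.Pairing.OldRelation
import Fermat.Agent.TwoAdic.Modules.QuotAction

/-!
The new quotient as a quotient of the whole localised `H¹`: the map, and the operators it
intertwines. At a prime `e` of the old space `U_e` becomes `-c_e`.
-/

set_option autoImplicit false

open IsLocalRing

namespace Fermat.Agent.TwoAdic.ALSetup

open HeckeJ0 LevelRaising HeckeModule

attribute [local instance] ALSetup.isPrime

variable {O : Type} [CommRing O] [IsLocalRing O] [IsNoetherianRing O]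
  [IsAdicComplete (maximalIdeal O) O] (T : ALSetup O) {V : Finset ℕ} (hV : V ⊆ T.W)

omit [IsNoetherianRing O] [IsAdicComplete (maximalIdeal O) O] in
lemma w_comm' (e : ℕ) (he : e ∈ V) (e' : ℕ) (he' : e' ∈ V) (x : T.H V O) :
    T.w O hV e (T.w O hV e' x) = T.w O hV e' (T.w O hV e x) :=
  T.w_comm hV he he' x

lemma range_normH :
    LinearMap.range (Pairing.normEnd (w := T.w O hV) (T.w_comm' hV) V subset_rfl)
      = T.signed O hV := by
  have : NeZero (T.level V) := ⟨T.level_ne_zero hV⟩
  obtain ⟨hfin, hfree⟩ := T.free_H hV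
  exact Pairing.range_normEnd (w := T.w O hV) (fun e he x => T.w_w hV he x) (T.w_comm' hV) T.two
    ((T.alHyp hV).residuallyExact fun a ha => T.mem_S a (hV ha)) V subset_rfl

/-- The norm of the involutions, onto the signed part. -/
noncomputable def normSigned : T.H V O →ₗ[O] T.signed O hV :=
  (Pairing.normEnd (w := T.w O hV) (T.w_comm' hV) V subset_rfl).codRestrict _ fun x =>
    (T.range_normH hV).le (LinearMap.mem_range_self _ x)

lemma coe_normSigned (x : T.H V O) :
    (T.normSigned hV x : T.H V O)
      = Pairing.normEnd (w := T.w O hV) (T.w_comm' hV) V subset_rfl x := rfl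

lemma normSigned_surjective : Function.Surjective (T.normSigned hV) := fun y => by
  obtain ⟨x, hx⟩ := (T.range_normH hV).ge y.2
  exact ⟨x, Subtype.ext hx⟩

/-- The new quotient as a quotient of the localised `H¹`. -/
noncomputable def toNew (B : Finset ℕ) : T.H V O →ₗ[O] T.NewQuot O hV B :=
  (T.oldSpace O hV B).mkQ ∘ₗ T.normSigned hV

lemma toNew_surjective (B : Finset ℕ) : Function.Surjective (T.toNew hV B) :=
  (Submodule.mkQ_surjective _).comp (T.normSigned_surjective hV)

lemma toNew_w (B : Finset ℕ) {e : ℕ} (he : e ∈ V) (x : T.H V O) :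
    T.toNew hV B (T.w O hV e x) = T.toNew hV B x :=
  congrArg Submodule.Quotient.mk (Subtype.ext
    (Pairing.normEnd_inv (T.w_comm' hV) (fun _ he x => T.w_w hV he x) subset_rfl he x))

/-- An operator commuting with the involutions, read on the signed part. -/
lemma toNew_comp (B : Finset ℕ) (φ : Module.End O (T.H V O))
    (hφ : ∀ e ∈ V, ∀ x, φ (T.w O hV e x) = T.w O hV e (φ x))
    (ψ : Module.End O (T.NewQuot O hV B))
    (hψ : ∀ y z : T.signed O hV, (z : T.H V O) = φ y →
      ψ (Submodule.Quotient.mk y) = Submodule.Quotient.mk z) (x : T.H V O) :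
    T.toNew hV B (φ x) = ψ (T.toNew hV B x) :=
  (hψ _ _ (Pairing.map_normEnd (T.w_comm' hV) (T.w_comm' hV) φ V subset_rfl subset_rfl hφ x).symm).symm

/-- Operators given at all levels. -/
lemma toNew_levelOp (B : Finset ℕ) (P : T.LevelOp O hV) (x : T.H V O) :
    T.toNew hV B (P.op V x) = P.quotEnd subset_rfl B (T.toNew hV B x) :=
  T.toNew_comp hV B (P.op V) (fun e he y => (P.w_op V subset_rfl e he y).symm) _
    (fun y _ hz => (P.quotEnd_mk subset_rfl B y).trans
      (congrArg Submodule.Quotient.mk (Subtype.ext hz.symm))) x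

omit [IsNoetherianRing O] [IsAdicComplete (maximalIdeal O) O] in
/-- Hecke operators commute with the involutions at other primes. -/
lemma X_smul_w {l : ℕ} [hl : Fact l.Prime] {e : ℕ} (he : e ∈ V) (hne : l ≠ e) (x : T.H V O) :
    (MvPolynomial.X (⟨l, hl.out⟩ : Nat.Primes) : HeckePoly O) • T.w O hV e x
      = T.w O hV e ((MvPolynomial.X (⟨l, hl.out⟩ : Nat.Primes) : HeckePoly O) • x) := by
  induction x using LocalizedModule.induction_on with
  | _ u s => rw [LocalizedModule.smul'_mk, T.w_mk hV he, T.w_mk hV he, LocalizedModule.smul'_mk,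
      X_smul, X_smul, alOp_heckeOp_ne _ he _ _ _ _ hne]

/-- The image of the face without `b` dies in the new quotient. -/
lemma toNew_res {B : Finset ℕ} {b : ℕ} (hb : b ∈ V) (hbB : b ∈ B) (z : T.H (V.erase b) O) :
    T.toNew hV B (T.res O hV (V.erase_subset b) z) = 0 := by
  have hV' : V.erase b ⊆ T.W := (V.erase_subset b).trans hV
  refine (Submodule.Quotient.mk_eq_zero _).mpr ?_
  have h : T.normSigned hV (T.res O hV (V.erase_subset b) z)
      = T.oldSigned O hV hb (T.normSigned hV' z) := by
    refine Subtype.ext ?_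
    rw [coe_oldSigned, T.oldMap_apply, T.coe_normSigned, T.coe_normSigned,
      Pairing.normEnd_eq (T.w_comm' hV) subset_rfl hb,
      ← Pairing.map_normEnd (T.w_comm' hV) (T.w_comm' hV') (T.res O hV (V.erase_subset b))
        (V.erase b) (V.erase_subset b) subset_rfl
        fun e he y => (T.w_res hV (V.erase_subset b) he y).symm]
  rw [h]
  exact T.oldSigned_mem_oldSpace O hV hb hbB _

/-- **At a prime of the old space `U_b` acts on the new quotient as `-c_b`.** -/
theorem toNew_X {B : Finset ℕ} {b : ℕ} [hb' : Fact b.Prime] (hb : b ∈ V) (hbB : b ∈ B)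
    (x : T.H V O) :
    T.toNew hV B ((MvPolynomial.X (⟨b, hb'.out⟩ : Nat.Primes) : HeckePoly O) • x)
      = -(T.c b) • T.toNew hV B x := by
  obtain ⟨z, hz⟩ := T.exists_res_eq hV hb x
  have h := congrArg (T.toNew hV B) hz
  rw [T.toNew_res hV hb hbB, map_add, map_smul (T.toNew hV B) (T.c b), T.toNew_w hV B hb] at h
  rw [neg_smul, eq_neg_iff_add_eq_zero]
  exact h.symm

end Fermat.Agent.TwoAdic.ALSetup
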