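import Fermat.Agent.TwoAdic.Modules.NewQuotient

/-!
Signed parts are images of norms: they are quotients of the whole localised `H¹`.
-/

set_option autoImplicit false

open IsLocalRing

namespace Fermat.Agent.TwoAdic.Pairing

variable {R M : Type*} [CommRing R] [AddCommGroup M] [Module R M] {ι : Type*}
  {w : ι → Module.End R M} {W : Finset ι}

section Norm

variable (hcomm : ∀ e ∈ W, ∀ e' ∈ W, ∀ x, w e (w e' x) = w e' (w e x))

include hcomm in
lemma pairwise_commute {V : Finset ι} (hV : V ⊆ W) :
    (V : Set ι).Pairwise (Function.onFun Commute fun e => 1 + w e) := fun e he e' he' _ =>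
  ((Commute.one_left _).add_left ((Commute.one_right _).add_right
    (LinearMap.ext (hcomm e (hV he) e' (hV he')))))

/-- The norm of the involutions at the members of `V`. -/
noncomputable def normEnd (V : Finset ι) (hV : V ⊆ W) : Module.End R M :=
  V.noncommProd (fun e => 1 + w e) (pairwise_commute hcomm hV)

lemma normEnd_empty (x : M) : normEnd hcomm ∅ (Finset.empty_subset W) x = x := by
  rw [normEnd, Finset.noncommProd_empty, Module.End.one_apply]

lemma normEnd_eq [DecidableEq ι] {V : Finset ι} (hV : V ⊆ W) {e : ι} (he : e ∈ V) (x : M) :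
    normEnd hcomm V hV x = normEnd hcomm (V.erase e) ((V.erase_subset e).trans hV) x
      + w e (normEnd hcomm (V.erase e) ((V.erase_subset e).trans hV) x) := by
  have h := Finset.mul_noncommProd_erase V he (fun e => 1 + w e) (pairwise_commute hcomm hV)
  rw [normEnd, ← h, Module.End.mul_apply, LinearMap.add_apply, Module.End.one_apply]
  rfl

lemma normEnd_insert [DecidableEq ι] {V : Finset ι} {e : ι} (hV : insert e V ⊆ W) (he : e ∉ V)
    (x : M) :
    normEnd hcomm (insert e V) hV x = normEnd hcomm V ((Finset.subset_insert e V).trans hV) x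
      + w e (normEnd hcomm V ((Finset.subset_insert e V).trans hV) x) := by
  rw [normEnd_eq hcomm hV (Finset.mem_insert_self e V)]
  simp only [Finset.erase_insert he]

/-- Norms are natural. -/
theorem map_normEnd {M' : Type*} [AddCommGroup M'] [Module R M'] {w' : ι → Module.End R M'}
    {W' : Finset ι} (hcomm' : ∀ e ∈ W', ∀ e' ∈ W', ∀ x, w' e (w' e' x) = w' e' (w' e x))
    (L : M' →ₗ[R] M) (V : Finset ι) (hV : V ⊆ W) (hV' : V ⊆ W')
    (hL : ∀ e ∈ V, ∀ x, L (w' e x) = w e (L x)) (x : M') :
    L (normEnd hcomm' V hV' x) = normEnd hcomm V hV (L x) := by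
  classical
  induction V using Finset.induction with
  | empty => rw [normEnd_empty, normEnd_empty]
  | insert a V ha ih =>
    rw [normEnd_insert hcomm' hV' ha, normEnd_insert hcomm hV ha, map_add,
      hL a (Finset.mem_insert_self a V),
      ih ((Finset.subset_insert a V).trans hV) ((Finset.subset_insert a V).trans hV')
        fun e he => hL e (Finset.mem_insert_of_mem he)]

theorem normEnd_inv (hw : ∀ e ∈ W, ∀ x, w e (w e x) = x) {V : Finset ι} (hV : V ⊆ W) {e : ι}
    (he : e ∈ V) (x : M) : normEnd hcomm V hV (w e x) = normEnd hcomm V hV x := by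
  classical
  rw [normEnd_eq hcomm hV he, normEnd_eq hcomm hV he x,
    ← map_normEnd hcomm hcomm (w e) (V.erase e) _ ((V.erase_subset e).trans hV)
      (fun e' he' y => hcomm e (hV he) e' (hV (Finset.mem_of_mem_erase he')) y) x,
    hw e (hV he), add_comm]

end Norm

variable [IsLocalRing R] [Module.Finite R M] [Module.Free R M]
  (hw : ∀ e ∈ W, ∀ x, w e (w e x) = x)
  (hcomm : ∀ e ∈ W, ∀ e' ∈ W, ∀ x, w e (w e' x) = w e' (w e x))
  (h2 : (2 : R) ∈ maximalIdeal R) (hres : IsResiduallyExact w W)

include hw h2 hres in
/-- The fixed part is the image of the norm. -/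
theorem range_normEnd (V : Finset ι) (hV : V ⊆ W) :
    LinearMap.range (normEnd hcomm V hV) = fixedPart w V := by
  classical
  induction V using Finset.induction with
  | empty =>
    refine le_antisymm (fun x _ => (mem_fixedPart w).mpr fun e he =>
      absurd he (Finset.notMem_empty e)) fun x _ => ⟨x, normEnd_empty hcomm x⟩
  | insert a V ha ih =>
    have haW : a ∈ W := hV (Finset.mem_insert_self a V)
    have hV' : V ⊆ W := (Finset.subset_insert a V).trans hV
    refine le_antisymm ?_ fun x hx => ?_
    · rintro _ ⟨x, rfl⟩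
      refine (mem_fixedPart w).mpr fun e he => ?_
      have hnx : normEnd hcomm V hV' x ∈ fixedPart w V :=
        (ih hV').le (LinearMap.mem_range_self _ x)
      rw [normEnd_insert hcomm hV ha, map_add]
      rcases Finset.mem_insert.mp he with rfl | he
      · rw [hw _ haW, add_comm]
      · rw [(mem_fixedPart w).mp hnx e he, hcomm e (hV' he) a haW,
          (mem_fixedPart w).mp hnx e he]
    · obtain ⟨y, hy, rfl⟩ := (fixedPart_spec w hw hcomm h2 hres _ hV).2.2 a
        (Finset.mem_insert_self a V) x hx V (Finset.subset_insert a V) ha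
      rw [← ih hV'] at hy
      obtain ⟨z, rfl⟩ := hy
      exact ⟨z, normEnd_insert hcomm hV ha z⟩

end Fermat.Agent.TwoAdic.Pairing
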